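import Mathlib
import Fermat.Agent.S27.AZDefs

/-!
# Block AZ of project S27: definitions

Generic part (a permutation `φ` of a set `S`): `fixSet`, `effSet`, `nmDiv`, `wZ`, `wN`.
Class groups of an `AZData`: `Cl`, `degCl`, `phiCl`, `Cl0`, `phi0`, `cl0`, `lCl`, `h`.
Power series: `geomS`, `trS`.
-/

set_option autoImplicit false

noncomputable section

namespace Fermat.Agent.S27.AZ

open PowerSeries

section perm

variable {S : Type*} (φ : Equiv.Perm S)

/-- fixed points of `φ ^ d`. -/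
def fixSet (d : ℕ) : Set S := {s | (φ ^ d) s = s}

/-- `φ`-stable effective divisors of degree `n`. -/
def effSet (n : ℕ) : Set (S →₀ ℤ) :=
  {E | 0 ≤ E ∧ Finsupp.domCongr φ E = E ∧ degHom S E = n}

/-- the divisor `∑_{i<d} [φ^i s]`. -/
def nmDiv (d : ℕ) (s : S) : S →₀ ℤ := ∑ i ∈ Finset.range d, Finsupp.single ((φ ^ i) s) 1

variable {R : Type*} [CommRing R]

/-- weighted zeta series `∑_E w(E) T^(deg E)`. -/
def wZ (w : (S →₀ ℤ) → R) : PowerSeries R :=
  PowerSeries.mk fun n => ∑ᶠ E ∈ effSet φ n, w E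

/-- weighted point counts `∑_{d ≥ 1} (∑_{s ∈ Fix φ^d} w(Nm_d s)) T^d`. -/
def wN (w : (S →₀ ℤ) → R) : PowerSeries R :=
  PowerSeries.mk fun d => if d = 0 then 0 else ∑ᶠ s ∈ fixSet φ d, w (nmDiv φ d s)

end perm

section series

variable {R : Type*} [CommRing R]

/-- `∑_{d ≥ 1} a^d T^d`. -/
def geomS (a : R) : PowerSeries R := PowerSeries.mk fun d => if d = 0 then 0 else a ^ d

/-- `∑_{d ≥ 1} tr(M^d) T^d`. -/
def trS {r : ℕ} (M : Matrix (Fin r) (Fin r) R) : PowerSeries R :=
  PowerSeries.mk fun d => if d = 0 then 0 else Matrix.trace (M ^ d)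

end series

section deg

variable {S : Type*}

theorem degHom_apply (D : S →₀ ℤ) : degHom S D = D.sum fun _ a => a := by
  simp only [degHom, Finsupp.liftAddHom_apply]
  rfl

@[simp] theorem degHom_single (s : S) (a : ℤ) : degHom S (Finsupp.single s a) = a := by
  simp [degHom]

@[simp] theorem degHom_domCongr (φ : Equiv.Perm S) (D : S →₀ ℤ) :
    degHom S (Finsupp.domCongr φ D) = degHom S D := by
  induction D using Finsupp.induction_linear with
  | zero => simp
  | add f g hf hg => rw [map_add, map_add, map_add, hf, hg]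
  | single a b => simp [Finsupp.domCongr_apply, Finsupp.equivMapDomain_single]

end deg

namespace AZData

variable {S : Type*} (A : AZData S)

/-- the divisor class group. -/
abbrev Cl : Type _ := (S →₀ ℤ) ⧸ A.Prin

/-- degree of a class. -/
def degCl : A.Cl →+ ℤ := QuotientAddGroup.lift A.Prin (degHom S) fun D hD => A.deg_prin D hD

/-- Frobenius on classes. -/
def phiCl : A.Cl →+ A.Cl :=
  QuotientAddGroup.map A.Prin A.Prin (Finsupp.domCongr A.φ).toAddMonoidHom
    fun D hD => A.push_prin D hD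

@[simp] theorem degCl_mk (D : S →₀ ℤ) : A.degCl (QuotientAddGroup.mk D) = degHom S D := rfl

@[simp] theorem phiCl_mk (D : S →₀ ℤ) :
    A.phiCl (QuotientAddGroup.mk D) = QuotientAddGroup.mk (Finsupp.domCongr A.φ D) := rfl

theorem degCl_phiCl (c : A.Cl) : A.degCl (A.phiCl c) = A.degCl c := by
  induction c using QuotientAddGroup.induction_on with
  | H D => rw [phiCl_mk, degCl_mk, degCl_mk, degHom_domCongr]

/-- classes of degree `0`. -/
abbrev Cl0 : AddSubgroup A.Cl := A.degCl.ker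

/-- Frobenius on classes of degree `0`, as an element of the endomorphism ring. -/
def phi0 : AddMonoid.End A.Cl0 :=
  (A.phiCl.comp A.Cl0.subtype).codRestrict A.Cl0 fun c => by
    rw [AddMonoidHom.mem_ker, AddMonoidHom.comp_apply, degCl_phiCl]
    exact c.2

@[simp] theorem coe_phi0 (c : A.Cl0) : ((A.phi0 c : A.Cl0) : A.Cl) = A.phiCl c := rfl

/-- the class of `D - deg(D) [s0]`. -/
def cl0 : (S →₀ ℤ) →+ A.Cl0 :=
  ((QuotientAddGroup.mk' A.Prin).comp
    (AddMonoidHom.id _ - (Finsupp.singleAddHom A.s0).comp (degHom S))).codRestrict A.Cl0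
    fun D => by
      rw [AddMonoidHom.mem_ker]
      simp

theorem coe_cl0 (D : S →₀ ℤ) :
    ((A.cl0 D : A.Cl0) : A.Cl) = QuotientAddGroup.mk (D - Finsupp.single A.s0 (degHom S D)) := rfl

/-- `l` on classes. -/
def lCl : A.Cl → ℕ :=
  Quotient.lift A.l fun D D' h => by
    have h' : -D + D' ∈ A.Prin := QuotientAddGroup.leftRel_apply.mp h
    refine (A.l_congr D' D ?_).symm
    rwa [sub_eq_neg_add]

@[simp] theorem lCl_mk (D : S →₀ ℤ) : A.lCl (QuotientAddGroup.mk D) = A.l D := rfl

/-- the class of `[s0]`. -/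
def c0 : A.Cl := QuotientAddGroup.mk (Finsupp.single A.s0 1)

/-- `h_m = #Pic⁰(F_{q^m})`. -/
def h (m : ℕ) : ℕ := Nat.card {c : A.Cl0 // (A.phi0 ^ m) c = c}

/-- the zeta series. -/
def Z : PowerSeries ℤ := wZ A.φ fun _ => 1

end AZData

end Fermat.Agent.S27.AZ
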