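import Mathlib

/-!
# Block AZ of project S27, STEP 4: logarithmic derivative of `det (1 - T M)`

* `X_mul_derivative_charpolyRev` : `T d/dT det(1 - T M) = - det(1 - T M) * ∑_{d ≥ 1} tr(M^d) T^d`.
* `eq_of_logDeriv_eq` : a power series with constant coefficient `1` is determined by its
  logarithmic derivative (over a torsion free ring).
* `exists_matrix_charpolyRev_eq` : every polynomial of degree `≤ r` with constant coefficient `1`
  is `det (1 - T M)` for some `r × r` matrix `M`, and `det M = (-1)^r * coeff_r`.
-/

set_option autoImplicit false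

noncomputable section

namespace Fermat.Agent.S27.AZ.M54

open Matrix

section LD

variable {R : Type*} [CommRing R] {n : Type*} [Fintype n] [DecidableEq n]

/-- the power series `∑_{d ≥ 1} tr(M^d) T^d`. -/
def trSeries (M : Matrix n n R) : PowerSeries R :=
  PowerSeries.mk fun d => if d = 0 then 0 else trace (M ^ d)

theorem coeff_trSeries (M : Matrix n n R) (d : ℕ) :
    PowerSeries.coeff d (trSeries M) = if d = 0 then 0 else trace (M ^ d) :=
  PowerSeries.coeff_mk _ _

/-- the matrix `∑ M^d T^d` of power series. -/
def geomMat (M : Matrix n n R) : Matrix n n (PowerSeries R) :=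
  fun i j => PowerSeries.mk fun d => (M ^ d) i j

theorem one_sub_mul_geomMat (M : Matrix n n R) :
    (1 - (PowerSeries.X : PowerSeries R) • M.map (PowerSeries.C : R →+* PowerSeries R)) * geomMat M
      = 1 := by
  ext i j d
  rw [sub_mul, one_mul, smul_mul_assoc, Matrix.sub_apply, Matrix.smul_apply, smul_eq_mul, map_sub,
    Matrix.mul_apply]
  simp only [geomMat, map_apply, PowerSeries.coeff_mk]
  cases d with
  | zero =>
      simp [one_apply, PowerSeries.coeff_zero_eq_constantCoeff]
  | succ d =>
      rw [PowerSeries.coeff_succ_X_mul, map_sum]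
      simp only [PowerSeries.coeff_C_mul, PowerSeries.coeff_mk]
      rw [pow_succ', mul_apply, sub_self]
      rw [one_apply]
      split_ifs <;> simp [PowerSeries.coeff_one]

theorem X_mul_trace_geomMat_mul (M : Matrix n n R) :
    (PowerSeries.X : PowerSeries R) *
      trace (geomMat M * M.map (PowerSeries.C : R →+* PowerSeries R)) = trSeries M := by
  ext d
  rw [coeff_trSeries]
  cases d with
  | zero => simp
  | succ d =>
      rw [PowerSeries.coeff_succ_X_mul, if_neg (Nat.succ_ne_zero d), pow_succ]
      simp only [trace, diag_apply, mul_apply, map_sum, geomMat, map_apply,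
        PowerSeries.coeff_mul_C, PowerSeries.coeff_mk]

open DualNumber TrivSqZeroExt in
/-- `d/dT det(1 - T M) = - det(1 - T M) * tr((1 - T M)⁻¹ M)`. -/
theorem derivative_charpolyRev (M : Matrix n n R) :
    ((Polynomial.derivative M.charpolyRev : Polynomial R) : PowerSeries R) =
      - (M.charpolyRev : PowerSeries R) *
        trace (geomMat M * M.map (PowerSeries.C : R →+* PowerSeries R)) := by
  set P := PowerSeries R with hP
  let ι : P →+* DualNumber P := TrivSqZeroExt.inlHom P P
  let c : R →+* P := PowerSeries.C
  let j : R →+* DualNumber P := ι.comp c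
  let e : DualNumber P := DualNumber.eps
  have he : e ^ 2 = 0 := by rw [pow_two]; exact DualNumber.eps_mul_eps
  -- evaluation at `ι X`
  have hev : ∀ p : Polynomial R, Polynomial.eval₂ j (ι PowerSeries.X) p = ι (p : P) := by
    intro p
    rw [← Polynomial.eval₂_C_X_eq_coe, Polynomial.hom_eval₂]
  -- Taylor
  have htaylor : Polynomial.eval₂ j (ι PowerSeries.X + e) M.charpolyRev =
      ι (M.charpolyRev : P) + ι ((Polynomial.derivative M.charpolyRev : Polynomial R) : P) * e := by
    rw [← hev, ← hev, Polynomial.eval₂_eq_eval_map, Polynomial.eval₂_eq_eval_map,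
      Polynomial.eval₂_eq_eval_map, Polynomial.eval_add_of_sq_eq_zero _ _ _ he,
      Polynomial.derivative_map]
  -- determinants
  have hdet : ∀ t : DualNumber P, Polynomial.eval₂ j t M.charpolyRev = det (1 - t • M.map j) := by
    intro t
    rw [Matrix.charpolyRev, ← Polynomial.coe_eval₂RingHom, RingHom.map_det]
    congr 1
    refine Matrix.ext fun a b => ?_
    rw [RingHom.mapMatrix_apply, Matrix.map_apply, Matrix.sub_apply, Matrix.sub_apply,
      Matrix.smul_apply, Matrix.smul_apply, Matrix.map_apply, Matrix.map_apply, map_sub,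
      smul_eq_mul, smul_eq_mul, map_mul, Polynomial.coe_eval₂RingHom, Polynomial.eval₂_X,
      Polynomial.eval₂_C, one_apply, one_apply]
    split_ifs <;> simp
  set A : Matrix n n P := 1 - (PowerSeries.X : P) • M.map c with hA
  set G : Matrix n n P := geomMat M with hG
  have hAG : A * G = 1 := one_sub_mul_geomMat M
  have hAι : A.map ι = 1 - ι PowerSeries.X • M.map j := by
    refine Matrix.ext fun a b => ?_
    simp [hA, one_apply, apply_ite, j]
  have hMι : (M.map c).map ι = M.map j := by
    refine Matrix.ext fun a b => ?_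
    simp [j]
  have hfac : 1 - (ι PowerSeries.X + e) • M.map j =
      A.map ι * (1 + (-e) • (G * M.map c).map ι) := by
    have h1 : A.map ι * (G * M.map c).map ι = M.map j := by
      rw [← Matrix.map_mul, ← mul_assoc, hAG, one_mul, hMι]
    rw [mul_add, mul_one, mul_smul_comm, h1, hAι, add_smul, neg_smul]
    abel
  have hdetA : det (A.map ι) = ι (M.charpolyRev : P) := by
    rw [hAι, ← hdet, hev]
  have hkey : ι (M.charpolyRev : P) + ι ((Polynomial.derivative M.charpolyRev : Polynomial R) : P) * e
      = ι (M.charpolyRev : P) * (1 + ι (trace (G * M.map c)) * (-e)) := by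
    rw [← htaylor, hdet, hfac, det_mul, hdetA, det_one_add_smul]
    have : (-e) ^ 2 = 0 := by rw [neg_sq, he]
    rw [this, mul_zero, add_zero]
    congr 3
    simp only [trace, diag_apply, map_sum, Matrix.map_apply]
  have := congrArg TrivSqZeroExt.snd hkey
  simp only [ι, e, TrivSqZeroExt.snd_mul, TrivSqZeroExt.snd_add, TrivSqZeroExt.inlHom_apply,
    TrivSqZeroExt.snd_inl, TrivSqZeroExt.fst_inl, DualNumber.snd_eps, DualNumber.fst_eps,
    TrivSqZeroExt.snd_neg, TrivSqZeroExt.fst_neg, TrivSqZeroExt.snd_one, TrivSqZeroExt.fst_add,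
    TrivSqZeroExt.fst_one, TrivSqZeroExt.fst_mul, smul_eq_mul, MulOpposite.smul_eq_mul_unop,
    MulOpposite.unop_op, mul_zero, add_zero, zero_add, mul_one, neg_zero,
    MulOpposite.op_zero, MulOpposite.unop_zero] at this
  rw [this]
  ring

/-- **LD**: `T d/dT det(1 - T M) = - det(1 - T M) * ∑_{d ≥ 1} tr(M^d) T^d`. -/
theorem X_mul_derivative_charpolyRev (M : Matrix n n R) :
    (PowerSeries.X : PowerSeries R) * PowerSeries.derivative R (M.charpolyRev : PowerSeries R) =
      - (M.charpolyRev : PowerSeries R) * trSeries M := by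
  rw [PowerSeries.derivative_coe, derivative_charpolyRev, ← X_mul_trace_geomMat_mul]
  ring

end LD

section Uniq

variable {R : Type*} [CommRing R] [IsDomain R] [CharZero R]

/-- **UNIQ**: a power series with constant coefficient `1` is determined by its logarithmic
derivative. -/
theorem eq_of_logDeriv_eq {f g s : PowerSeries R} (hf : PowerSeries.constantCoeff f = 1)
    (hg : PowerSeries.constantCoeff g = 1)
    (hfs : (PowerSeries.X : PowerSeries R) * PowerSeries.derivative R f = f * s)
    (hgs : (PowerSeries.X : PowerSeries R) * PowerSeries.derivative R g = g * s) : f = g := by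
  have hs : PowerSeries.constantCoeff s = 0 := by
    have := congrArg PowerSeries.constantCoeff hfs
    simpa [hf] using this.symm
  -- recursion for the coefficients
  have hrec : ∀ (h : PowerSeries R), (PowerSeries.X : PowerSeries R) * PowerSeries.derivative R h
      = h * s → ∀ n : ℕ, ((n : R) + 1) * PowerSeries.coeff (n + 1) h =
        ∑ i ∈ Finset.range (n + 1), PowerSeries.coeff i h * PowerSeries.coeff (n + 1 - i) s := by
    intro h hh n
    have := congrArg (PowerSeries.coeff (n + 1)) hh
    rw [PowerSeries.coeff_succ_X_mul, PowerSeries.coeff_derivative, PowerSeries.coeff_mul,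
      Finset.Nat.sum_antidiagonal_eq_sum_range_succ
        (fun i j => PowerSeries.coeff i h * PowerSeries.coeff j s) (n + 1),
      Finset.sum_range_succ] at this
    rw [Nat.sub_self, PowerSeries.coeff_zero_eq_constantCoeff_apply, hs, mul_zero, add_zero] at this
    rw [← this]
    ring
  ext n
  induction n using Nat.strong_induction_on with
  | _ n ih =>
    cases n with
    | zero =>
        rw [PowerSeries.coeff_zero_eq_constantCoeff_apply,
          PowerSeries.coeff_zero_eq_constantCoeff_apply, hf, hg]
    | succ n =>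
        have h1 := hrec f hfs n
        have h2 := hrec g hgs n
        have h3 : ((n : R) + 1) * PowerSeries.coeff (n + 1) f =
            ((n : R) + 1) * PowerSeries.coeff (n + 1) g := by
          rw [h1, h2]
          refine Finset.sum_congr rfl fun i hi => ?_
          rw [ih i (Finset.mem_range.mp hi)]
        have h4 : ((n : R) + 1) ≠ 0 := by exact_mod_cast Nat.succ_ne_zero n
        exact mul_left_cancel₀ h4 h3

end Uniq

section Comp

variable {R : Type*} [CommRing R]

theorem det_eq_sign_coeff_charpolyRev {n : Type*} [Fintype n] [DecidableEq n] (M : Matrix n n R) :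
    M.det = (-1) ^ Fintype.card n * M.charpolyRev.coeff (Fintype.card n) := by
  nontriviality R
  rw [det_eq_sign_charpoly_coeff, ← reverse_charpoly, Polynomial.reverse,
    Polynomial.coeff_reflect, charpoly_natDegree_eq_dim, Polynomial.revAt_le le_rfl, Nat.sub_self]

/-- **COMP**: every polynomial of degree `≤ r` with constant coefficient `1` is `det (1 - T M)`. -/
theorem exists_matrix_charpolyRev_eq (r : ℕ) (f : Polynomial R) (hdeg : f.natDegree ≤ r)
    (h0 : f.coeff 0 = 1) :
    ∃ M : Matrix (Fin r) (Fin r) R, M.charpolyRev = f ∧ M.det = (-1) ^ r * f.coeff r := by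
  suffices h : ∃ M : Matrix (Fin r) (Fin r) R, M.charpolyRev = f by
    obtain ⟨M, hM⟩ := h
    refine ⟨M, hM, ?_⟩
    rw [det_eq_sign_coeff_charpolyRev, hM, Fintype.card_fin]
  nontriviality R
  set P : Polynomial R := Polynomial.reflect r f with hP
  have hcoeff : P.coeff r = 1 := by
    rw [hP, Polynomial.coeff_reflect, Polynomial.revAt_le le_rfl, Nat.sub_self, h0]
  have hPdeg : P.natDegree = r := by
    refine le_antisymm ?_ ?_
    · refine (Polynomial.natDegree_le_iff_coeff_eq_zero).2 fun N hN => ?_
      rw [hP, Polynomial.coeff_reflect, Polynomial.revAt_eq_self_of_lt hN]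
      exact Polynomial.coeff_eq_zero_of_natDegree_lt (lt_of_le_of_lt hdeg hN)
    · exact Polynomial.le_natDegree_of_ne_zero (by rw [hcoeff]; exact one_ne_zero)
  have hmonic : P.Monic := by
    rw [Polynomial.Monic, Polynomial.leadingCoeff, hPdeg, hcoeff]
  let pb := AdjoinRoot.powerBasis' hmonic
  have hmin : P = minpoly R pb.gen := by
    refine minpoly.unique' R pb.gen hmonic ?_ ?_
    · rw [AdjoinRoot.powerBasis'_gen, AdjoinRoot.aeval_eq, AdjoinRoot.mk_self]
    · intro q hq
      by_cases hq0 : q = 0
      · exact Or.inl hq0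
      · refine Or.inr ?_
        rw [AdjoinRoot.powerBasis'_gen, AdjoinRoot.aeval_eq, Ne, AdjoinRoot.mk_eq_zero]
        exact hmonic.not_dvd_of_degree_lt hq0 hq
  have hdim : pb.dim = r := by rw [AdjoinRoot.powerBasis'_dim, hPdeg]
  let M₀ := Algebra.leftMulMatrix pb.basis pb.gen
  have hM₀ : M₀.charpoly = P := (charpoly_leftMulMatrix pb).trans hmin.symm
  refine ⟨Matrix.reindex (finCongr hdim) (finCongr hdim) M₀, ?_⟩
  rw [← reverse_charpoly, Matrix.charpoly_reindex, hM₀, Polynomial.reverse, hPdeg, hP,
    Polynomial.reflect_reflect]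

end Comp

end Fermat.Agent.S27.AZ.M54
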