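import Mathlib
import Fermat.Agent.S27.AZ.Defs
import Fermat.Agent.S27.AZ.MatrixLD54

set_option autoImplicit false

noncomputable section

namespace Fermat.Agent.S27.AZ

/-- **COMP**: a polynomial of degree `≤ r` with constant term `1` is `det(1 - T M)`. -/
theorem exists_matrix_charpolyRev {R : Type*} [CommRing R] [Nontrivial R] (f : Polynomial R)
    (r : ℕ) (hdeg : f.natDegree ≤ r) (h0 : f.coeff 0 = 1) :
    ∃ M : Matrix (Fin r) (Fin r) R, M.charpolyRev = f ∧ M.det = (-1) ^ r * f.coeff r :=
  M54.exists_matrix_charpolyRev_eq r f hdeg h0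

end Fermat.Agent.S27.AZ
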