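import Mathlib
import Fermat.Agent.S27.AZ.Defs

/-!
# Block AZ: the data `A.pow m` (`φ ^ m`, `q ^ m`)
-/

set_option autoImplicit false

noncomputable section

namespace Fermat.Agent.S27.AZ

variable {S : Type*}

theorem domCongr_mul (φ ψ : Equiv.Perm S) (D : S →₀ ℤ) :
    Finsupp.domCongr (φ * ψ) D = Finsupp.domCongr φ (Finsupp.domCongr ψ D) := by
  ext s
  simp [Finsupp.domCongr_apply, Finsupp.equivMapDomain_apply, Equiv.Perm.mul_def]

theorem domCongr_one (D : S →₀ ℤ) : Finsupp.domCongr (1 : Equiv.Perm S) D = D := by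
  ext s
  rw [Finsupp.domCongr_apply, Finsupp.equivMapDomain_apply]
  rfl

theorem domCongr_pow_succ (φ : Equiv.Perm S) (m : ℕ) (D : S →₀ ℤ) :
    Finsupp.domCongr (φ ^ (m + 1)) D = Finsupp.domCongr φ (Finsupp.domCongr (φ ^ m) D) := by
  rw [pow_succ', domCongr_mul]

namespace AZData

variable (A : AZData S)

theorem push_pow_prin (m : ℕ) {D : S →₀ ℤ} (h : D ∈ A.Prin) :
    Finsupp.domCongr (A.φ ^ m) D ∈ A.Prin := by
  induction m with
  | zero => rwa [pow_zero, domCongr_one]
  | succ m ih => rw [domCongr_pow_succ]; exact A.push_prin _ ih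

theorem l_push_pow (m : ℕ) (D : S →₀ ℤ) : A.l (Finsupp.domCongr (A.φ ^ m) D) = A.l D := by
  induction m with
  | zero => rw [pow_zero, domCongr_one]
  | succ m ih => rw [domCongr_pow_succ, A.l_push, ih]

/-- the data over the extension of degree `m` of the constant field. -/
def pow (m : ℕ) (hm : 0 < m) : AZData S where
  φ := A.φ ^ m
  Prin := A.Prin
  l := A.l
  q := A.q ^ m
  g := A.g
  W := A.W
  s0 := A.s0
  one_lt_q := Nat.one_lt_pow hm.ne' A.one_lt_q
  deg_prin := A.deg_prin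
  push_prin := fun _ hD => A.push_pow_prin m hD
  finite_fix := fun k hk => by
    simpa only [← pow_mul] using A.finite_fix (m * k) (Nat.mul_pos hm hk)
  exists_fix := fun s => by
    obtain ⟨k, hk, hs⟩ := A.exists_fix s
    refine ⟨k, hk, ?_⟩
    rw [← pow_mul, mul_comm, pow_mul]
    exact Function.IsFixedPt.perm_pow hs m
  fix_s0 := Function.IsFixedPt.perm_pow A.fix_s0 m
  l_congr := A.l_congr
  l_push := A.l_push_pow m
  l_pos_iff := A.l_pos_iff
  rr := A.rr
  count := fun k hk D hD => by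
    have := A.count (m * k) (Nat.mul_pos hm hk) D (by simpa only [← pow_mul] using hD)
    simpa only [← pow_mul, mul_assoc] using this

@[simp] theorem pow_φ (m : ℕ) (hm : 0 < m) : (A.pow m hm).φ = A.φ ^ m := rfl
@[simp] theorem pow_Prin (m : ℕ) (hm : 0 < m) : (A.pow m hm).Prin = A.Prin := rfl
@[simp] theorem pow_l (m : ℕ) (hm : 0 < m) : (A.pow m hm).l = A.l := rfl
@[simp] theorem pow_q (m : ℕ) (hm : 0 < m) : (A.pow m hm).q = A.q ^ m := rfl
@[simp] theorem pow_g (m : ℕ) (hm : 0 < m) : (A.pow m hm).g = A.g := rfl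
@[simp] theorem pow_W (m : ℕ) (hm : 0 < m) : (A.pow m hm).W = A.W := rfl
@[simp] theorem pow_s0 (m : ℕ) (hm : 0 < m) : (A.pow m hm).s0 = A.s0 := rfl

end AZData

end Fermat.Agent.S27.AZ
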