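import Mathlib
import Fermat.Agent.S27.AZ.Defs
import Fermat.Agent.S27.AZ.PowDef

set_option autoImplicit false

noncomputable section

namespace Fermat.Agent.S27.AZ

variable {S : Type*} (φ : Equiv.Perm S)

theorem deg_nonneg_of_nonneg {E : S →₀ ℤ} (h : 0 ≤ E) : 0 ≤ degHom S E := by
  rw [degHom_apply]
  exact Finsupp.sum_nonneg fun s _ => h s

theorem EffFinite.apply_le_deg {E : S →₀ ℤ} (h : 0 ≤ E) (s : S) : E s ≤ degHom S E := by
  by_cases hs : s ∈ E.support
  · rw [degHom_apply]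
    exact Finset.single_le_sum (f := fun t => E t) (fun t _ => h t) hs
  · rw [Finsupp.notMem_support_iff.mp hs]
    exact deg_nonneg_of_nonneg h

theorem eq_zero_of_nonneg_of_deg_eq_zero {E : S →₀ ℤ} (h : 0 ≤ E) (hd : degHom S E = 0) :
    E = 0 := by
  ext s
  have h1 := EffFinite.apply_le_deg h s
  have h2 : 0 ≤ E s := h s
  rw [hd] at h1
  simp only [Finsupp.coe_zero, Pi.zero_apply]
  omega

theorem apply_le_deg_of_nonneg {E : S →₀ ℤ} (h : 0 ≤ E) (s : S) : E s ≤ degHom S E :=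
  EffFinite.apply_le_deg h s

theorem domCongr_apply_apply (D : S →₀ ℤ) (s : S) : Finsupp.domCongr φ D (φ s) = D s := by
  simp [Finsupp.domCongr_apply, Finsupp.equivMapDomain_apply]

/-- a stable divisor is constant on orbits. -/
theorem apply_pow_of_stable {D : S →₀ ℤ} (h : Finsupp.domCongr φ D = D) (i : ℕ) (s : S) :
    D ((φ ^ i) s) = D s := by
  induction i with
  | zero => simp
  | succ i ih =>
    rw [pow_succ', Equiv.Perm.mul_apply]
    conv_lhs => rw [← h]
    rw [domCongr_apply_apply, ih]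

theorem effSet_zero : effSet φ 0 = {0} := by
  ext E
  constructor
  · rintro ⟨h1, -, h3⟩
    exact eq_zero_of_nonneg_of_deg_eq_zero h1 (by simpa using h3)
  · rintro rfl
    exact ⟨le_refl _, map_zero _, by simp⟩

/-- a point of the support of a stable effective divisor of degree `n` is fixed by `φ ^ d`
for some `1 ≤ d ≤ n`. -/
theorem exists_fix_of_mem_support {n : ℕ} {E : S →₀ ℤ} (hE : E ∈ effSet φ n) {s : S}
    (hs : s ∈ E.support) : ∃ d, 1 ≤ d ∧ d ≤ n ∧ s ∈ fixSet φ d := by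
  classical
  obtain ⟨h0, hst, hdeg⟩ := hE
  by_contra hcon
  push Not at hcon
  have hlt : ∀ i j : ℕ, i < j → j ≤ n → (φ ^ i) s ≠ (φ ^ j) s := by
    intro i j hij hj heq
    have h1 : j = i + (j - i) := by omega
    rw [h1, pow_add, Equiv.Perm.mul_apply] at heq
    exact hcon (j - i) (by omega) (by omega) ((φ ^ i).injective heq).symm
  have hinj : Set.InjOn (fun i : ℕ => (φ ^ i) s) (Finset.range (n + 1) : Finset ℕ) := by
    intro i hi j hj heq
    have hi' : i < n + 1 := Finset.mem_range.mp hi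
    have hj' : j < n + 1 := Finset.mem_range.mp hj
    rcases lt_trichotomy i j with h | h | h
    · exact absurd heq (hlt i j h (by omega))
    · exact h
    · exact absurd heq.symm (hlt j i h (by omega))
  have hs0 : E s ≠ 0 := Finsupp.mem_support_iff.mp hs
  have hs1 : 1 ≤ E s := by
    have : 0 ≤ E s := h0 s
    omega
  have hsub : (Finset.range (n + 1)).image (fun i : ℕ => (φ ^ i) s) ⊆ E.support := by
    intro t ht
    obtain ⟨i, -, rfl⟩ := Finset.mem_image.mp ht
    rw [Finsupp.mem_support_iff, apply_pow_of_stable φ hst]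
    exact hs0
  have h1 : ∑ t ∈ (Finset.range (n + 1)).image (fun i : ℕ => (φ ^ i) s), E t
      ≤ ∑ t ∈ E.support, E t :=
    Finset.sum_le_sum_of_subset_of_nonneg hsub fun t _ _ => h0 t
  rw [Finset.sum_image hinj] at h1
  have h2 : ∑ i ∈ Finset.range (n + 1), E ((φ ^ i) s) = (n + 1) * E s := by
    rw [Finset.sum_congr rfl fun i _ => apply_pow_of_stable φ hst i s]
    simp
  have h3 : degHom S E = ∑ t ∈ E.support, E t := degHom_apply E
  rw [h2, ← h3, hdeg] at h1
  nlinarith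

/-- **STEP 1**. -/
theorem effSet_finite (hfin : ∀ m, 0 < m → (fixSet φ m).Finite) (n : ℕ) :
    (effSet φ n).Finite := by
  classical
  have hX : (⋃ d ∈ Finset.Icc 1 n, fixSet φ d).Finite :=
    Set.Finite.biUnion (Finset.finite_toSet _) fun d hd =>
      hfin d (by have := (Finset.mem_Icc.mp hd).1; omega)
  refine (Finset.finite_toSet (hX.toFinset.finsupp fun _ => Finset.Icc (0 : ℤ) n)).subset ?_
  intro E hE
  rw [Finset.mem_coe, Finset.mem_finsupp_iff]
  refine ⟨fun s hs => ?_, fun s _ => ?_⟩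
  · obtain ⟨d, hd1, hd2, hd3⟩ := exists_fix_of_mem_support φ hE hs
    rw [Set.Finite.mem_toFinset]
    exact Set.mem_biUnion (Finset.mem_coe.mpr (Finset.mem_Icc.mpr ⟨hd1, hd2⟩)) hd3
  · rw [Finset.mem_Icc]
    refine ⟨hE.1 s, ?_⟩
    rw [← hE.2.2]
    exact apply_le_deg_of_nonneg hE.1 s

theorem fixSet_pow (m d : ℕ) : fixSet (φ ^ m) d = fixSet φ (m * d) := by
  simp [fixSet, pow_mul]

theorem nmDiv_nonneg (d : ℕ) (s : S) : 0 ≤ nmDiv φ d s :=
  Finset.sum_nonneg fun _ _ => Finsupp.single_nonneg.mpr zero_le_one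

theorem deg_nmDiv (d : ℕ) (s : S) : degHom S (nmDiv φ d s) = d := by
  simp [nmDiv, map_sum]

theorem EffFinite.domCongr_single (ψ : Equiv.Perm S) (x : S) (a : ℤ) :
    Finsupp.domCongr ψ (Finsupp.single x a) = Finsupp.single (ψ x) a := by
  rw [Finsupp.domCongr_apply, Finsupp.equivMapDomain_single]

theorem nmDiv_stable {d : ℕ} {s : S} (hs : s ∈ fixSet φ d) :
    Finsupp.domCongr φ (nmDiv φ d s) = nmDiv φ d s := by
  have hs' : (φ ^ d) s = s := hs
  unfold nmDiv
  rw [map_sum]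
  have h1 : ∀ i ∈ Finset.range d, Finsupp.domCongr φ (Finsupp.single ((φ ^ i) s) (1 : ℤ))
      = Finsupp.single ((φ ^ (i + 1)) s) 1 := by
    intro i _
    rw [EffFinite.domCongr_single, pow_succ', Equiv.Perm.mul_apply]
  rw [Finset.sum_congr rfl h1]
  have h2 := Finset.sum_range_succ' (fun i => Finsupp.single ((φ ^ i) s) (1 : ℤ)) d
  rw [Finset.sum_range_succ, hs', pow_zero, Equiv.Perm.one_apply] at h2
  exact (add_right_cancel h2).symm

theorem nmDiv_mem_effSet {d : ℕ} {s : S} (hs : s ∈ fixSet φ d) : nmDiv φ d s ∈ effSet φ d :=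
  ⟨nmDiv_nonneg φ d s, nmDiv_stable φ hs, deg_nmDiv φ d s⟩

/-- `Nm_{me} s = ∑_{i<m} φ^i (Nm^{(m)}_e s)`. -/
theorem nmDiv_mul (m e : ℕ) (s : S) :
    nmDiv φ (m * e) s = ∑ i ∈ Finset.range m, Finsupp.domCongr (φ ^ i) (nmDiv (φ ^ m) e s) := by
  induction e with
  | zero => simp [nmDiv]
  | succ e ih =>
    have h1 : nmDiv φ (m * (e + 1)) s
        = nmDiv φ (m * e) s + ∑ i ∈ Finset.range m, Finsupp.single ((φ ^ (m * e + i)) s) 1 := by
      unfold nmDiv
      rw [Nat.mul_succ, Finset.sum_range_add]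
    have h2 : nmDiv (φ ^ m) (e + 1) s
        = nmDiv (φ ^ m) e s + Finsupp.single (((φ ^ m) ^ e) s) 1 := by
      unfold nmDiv
      rw [Finset.sum_range_succ]
    rw [h1, h2, ih]
    simp only [map_add, Finset.sum_add_distrib]
    congr 1
    refine Finset.sum_congr rfl fun i _ => ?_
    rw [EffFinite.domCongr_single, ← pow_mul, ← Equiv.Perm.mul_apply, ← pow_add, add_comm]

end Fermat.Agent.S27.AZ
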