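import Mathlib
import Fermat.Agent.S27.AZ.Defs
import Fermat.Agent.S27.AZ.PowDef
import Fermat.Agent.S27.AZ.EffFinite

set_option autoImplicit false

noncomputable section

namespace Fermat.Agent.S27.AZ

namespace AZData

variable {S : Type*} (A : AZData S)

theorem l_eq_zero_of_deg_neg {D : S →₀ ℤ} (h : degHom S D < 0) : A.l D = 0 := by
  by_contra hne
  obtain ⟨E, hE, hED⟩ := (A.l_pos_iff D).mp (Nat.pos_of_ne_zero hne)
  have h1 := A.deg_prin _ hED
  rw [map_sub] at h1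
  have h2 := deg_nonneg_of_nonneg hE
  omega

theorem l_zero : A.l 0 = 1 := by
  have h := A.count 1 one_pos 0 (by simp [A.Prin.zero_mem])
  have huniq : Nat.card {E : S →₀ ℤ // 0 ≤ E ∧ Finsupp.domCongr (A.φ ^ 1) E = E ∧
      E - 0 ∈ A.Prin} = 1 := by
    rw [Nat.card_eq_one_iff_unique]
    refine ⟨⟨fun a b => ?_⟩, ⟨⟨0, le_refl _, map_zero _, by simp [A.Prin.zero_mem]⟩⟩⟩
    have key : ∀ E : {E : S →₀ ℤ // 0 ≤ E ∧ Finsupp.domCongr (A.φ ^ 1) E = E ∧
        E - 0 ∈ A.Prin}, (E : S →₀ ℤ) = 0 := by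
      intro E
      refine eq_zero_of_nonneg_of_deg_eq_zero E.2.1 ?_
      have := A.deg_prin _ E.2.2.2
      simpa using this
    exact Subtype.ext ((key a).trans (key b).symm)
  rw [huniq, mul_one, pow_one, one_mul] at h
  have hq := A.one_lt_q
  have h1 : 1 ≤ A.q ^ A.l 0 := Nat.one_le_pow _ _ (by omega)
  have h2 : A.q ^ 1 = A.q ^ A.l 0 := by
    rw [pow_one]
    omega
  exact (Nat.pow_right_injective hq h2).symm

theorem l_W : A.l A.W = A.g := by
  have h := A.rr 0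
  rw [sub_zero, map_zero, l_zero] at h
  push_cast at h
  omega

theorem deg_W : degHom S A.W = 2 * (A.g : ℤ) - 2 := by
  have h := A.rr A.W
  rw [sub_self, l_zero, l_W] at h
  push_cast at h
  omega

theorem mem_prin_of_l_pos {D : S →₀ ℤ} (h0 : degHom S D = 0) (h : 0 < A.l D) : D ∈ A.Prin := by
  obtain ⟨E, hE, hED⟩ := (A.l_pos_iff D).mp h
  have h1 := A.deg_prin _ hED
  rw [map_sub, h0, sub_zero] at h1
  have h2 := eq_zero_of_nonneg_of_deg_eq_zero hE h1
  rw [h2, zero_sub] at hED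
  simpa using A.Prin.neg_mem hED

theorem l_of_le_deg {D : S →₀ ℤ} (h : 2 * (A.g : ℤ) - 1 ≤ degHom S D) :
    (A.l D : ℤ) = degHom S D + 1 - A.g := by
  have h1 : A.l (A.W - D) = 0 := by
    apply l_eq_zero_of_deg_neg
    rw [map_sub, deg_W]
    omega
  have h2 := A.rr D
  rw [h1] at h2
  push_cast at h2
  omega

theorem l_of_sub_W_mem {D : S →₀ ℤ} (h : D - A.W ∈ A.Prin) : A.l D = A.g := by
  rw [A.l_congr D A.W h, l_W]

theorem l_of_sub_W_not_mem {D : S →₀ ℤ} (hd : degHom S D = 2 * (A.g : ℤ) - 2)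
    (h : D - A.W ∉ A.Prin) : (A.l D : ℤ) = A.g - 1 := by
  have h1 : A.l (A.W - D) = 0 := by
    by_contra hne
    have h2 := A.mem_prin_of_l_pos (D := A.W - D) (by rw [map_sub, deg_W, hd, sub_self])
      (Nat.pos_of_ne_zero hne)
    apply h
    simpa using A.Prin.neg_mem h2
  have h2 := A.rr D
  rw [h1, hd] at h2
  push_cast at h2
  omega

theorem push_W_sub_W_mem : Finsupp.domCongr A.φ A.W - A.W ∈ A.Prin := by
  have h := A.rr (Finsupp.domCongr A.φ A.W)
  rw [A.l_push, l_W, degHom_domCongr, deg_W] at h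
  have h1 : 0 < A.l (A.W - Finsupp.domCongr A.φ A.W) := by omega
  have h2 := A.mem_prin_of_l_pos (D := A.W - Finsupp.domCongr A.φ A.W)
    (by rw [map_sub, degHom_domCongr, sub_self]) h1
  simpa using A.Prin.neg_mem h2

theorem mem_prin_of_g_eq_zero (hg : A.g = 0) {D : S →₀ ℤ} (h0 : degHom S D = 0) :
    D ∈ A.Prin := by
  have h := A.rr D
  rw [h0, hg] at h
  push_cast at h
  exact A.mem_prin_of_l_pos h0 (by omega)

end AZData

end Fermat.Agent.S27.AZ
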