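import Mathlib
import Fermat.Agent.S27.AZ.Defs
import Fermat.Agent.S27.AZ.PowDef
import Fermat.Agent.S27.AZ.EffFinite
import Fermat.Agent.S27.AZ.Basic

set_option autoImplicit false

noncomputable section

namespace Fermat.Agent.S27.AZ

namespace AZData

variable {S : Type*} (A : AZData S)

theorem domCongr_pow_mul_of_fix (φ : Equiv.Perm S) {m : ℕ} {D : S →₀ ℤ}
    (h : Finsupp.domCongr (φ ^ m) D = D) (k : ℕ) : Finsupp.domCongr (φ ^ (m * k)) D = D := by
  induction k with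
  | zero => rw [Nat.mul_zero, pow_zero, domCongr_one]
  | succ k ih => rw [Nat.mul_succ, pow_add, domCongr_mul, h, ih]

/-- every divisor is fixed by a power of Frobenius. -/
theorem exists_pow_fix_div (D : S →₀ ℤ) : ∃ m, 0 < m ∧ Finsupp.domCongr (A.φ ^ m) D = D := by
  induction D using Finsupp.induction_linear with
  | zero => exact ⟨1, one_pos, map_zero _⟩
  | add f g hf hg =>
    obtain ⟨m, hm, hf⟩ := hf
    obtain ⟨k, hk, hg⟩ := hg
    refine ⟨m * k, Nat.mul_pos hm hk, ?_⟩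
    rw [map_add, domCongr_pow_mul_of_fix A.φ hf k, mul_comm, domCongr_pow_mul_of_fix A.φ hg m]
  | single a b =>
    obtain ⟨m, hm, h⟩ := A.exists_fix a
    refine ⟨m, hm, ?_⟩
    rw [Finsupp.domCongr_apply, Finsupp.equivMapDomain_single, h]

theorem coe_phi0_pow_mk (m : ℕ) (D : S →₀ ℤ) (hD : (QuotientAddGroup.mk D : A.Cl) ∈ A.Cl0) :
    (((A.phi0 ^ m) ⟨QuotientAddGroup.mk D, hD⟩ : A.Cl0) : A.Cl) =
      QuotientAddGroup.mk (Finsupp.domCongr (A.φ ^ m) D) := by
  induction m with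
  | zero => rw [pow_zero, pow_zero, domCongr_one]; rfl
  | succ m ih =>
    rw [pow_succ']
    change ((A.phi0 ((A.phi0 ^ m) ⟨QuotientAddGroup.mk D, hD⟩) : A.Cl0) : A.Cl) = _
    rw [coe_phi0, ih, phiCl_mk, domCongr_pow_succ]

/-- every class is fixed by a power of Frobenius. -/
theorem exists_pow_fix_cl0 (c : A.Cl0) : ∃ m, 0 < m ∧ (A.phi0 ^ m) c = c := by
  obtain ⟨c, hc⟩ := c
  induction c using QuotientAddGroup.induction_on with
  | H D =>
    obtain ⟨m, hm, h⟩ := A.exists_pow_fix_div D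
    refine ⟨m, hm, Subtype.ext ?_⟩
    rw [coe_phi0_pow_mk, h]

theorem cl0_surjective : Function.Surjective A.cl0 := by
  rintro ⟨c, hc⟩
  induction c using QuotientAddGroup.induction_on with
  | H D =>
    refine ⟨D, Subtype.ext ?_⟩
    have h0 : degHom S D = 0 := hc
    rw [coe_cl0, h0, Finsupp.single_zero, sub_zero]

theorem cl0_eq_zero_iff (D : S →₀ ℤ) :
    A.cl0 D = 0 ↔ D - Finsupp.single A.s0 (degHom S D) ∈ A.Prin := by
  rw [← QuotientAddGroup.eq_zero_iff, ← coe_cl0]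
  exact ⟨fun h => by rw [h]; rfl, fun h => Subtype.ext h⟩

theorem cl0_domCongr_pow (m : ℕ) (D : S →₀ ℤ) :
    A.cl0 (Finsupp.domCongr (A.φ ^ m) D) = (A.phi0 ^ m) (A.cl0 D) := by
  apply Subtype.ext
  have h1 : A.cl0 D = ⟨QuotientAddGroup.mk (D - Finsupp.single A.s0 (degHom S D)),
      (A.cl0 D).2⟩ := rfl
  rw [h1, coe_phi0_pow_mk, coe_cl0, degHom_domCongr, map_sub]
  congr 2
  rw [Finsupp.domCongr_apply, Finsupp.equivMapDomain_single]
  congr 1
  exact (Function.IsFixedPt.perm_pow A.fix_s0 m).symm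

/-- the class of a stable divisor is stable. -/
theorem phi0_cl0_of_stable {D : S →₀ ℤ} (h : Finsupp.domCongr A.φ D = D) :
    A.phi0 (A.cl0 D) = A.cl0 D := by
  have := A.cl0_domCongr_pow 1 D
  rw [pow_one, pow_one, h] at this
  exact this.symm

end AZData

end Fermat.Agent.S27.AZ
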