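import Mathlib
import Fermat.Agent.S27.AZ.Defs
import Fermat.Agent.S27.AZ.PowDef
import Fermat.Agent.S27.AZ.EffFinite
import Fermat.Agent.S27.AZ.Basic
import Fermat.Agent.S27.AZ.BasicCl

set_option autoImplicit false

noncomputable section

namespace Fermat.Agent.S27.AZ

namespace AZData

open PowerSeries

variable {S : Type*} (A : AZData S)

namespace CountA

theorem domCongr_single_s0 (n : ℤ) :
    Finsupp.domCongr A.φ (Finsupp.single A.s0 n) = Finsupp.single A.s0 n := by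
  rw [Finsupp.domCongr_apply, Finsupp.equivMapDomain_single, A.fix_s0]

theorem cl0_eq_iff (E D : S →₀ ℤ) :
    A.cl0 E = A.cl0 D ↔
      (E - Finsupp.single A.s0 (degHom S E)) - (D - Finsupp.single A.s0 (degHom S D)) ∈ A.Prin := by
  rw [Subtype.ext_iff, coe_cl0, coe_cl0, QuotientAddGroup.eq_iff_sub_mem]

/-- the divisor of degree `n` attached to `D0`. -/
def shift (D0 : S →₀ ℤ) (n : ℕ) : S →₀ ℤ :=
  D0 - Finsupp.single A.s0 (degHom S D0) + Finsupp.single A.s0 (n : ℤ)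

theorem deg_shift (D0 : S →₀ ℤ) (n : ℕ) : degHom S (shift A D0 n) = n := by
  simp [shift]

theorem mk_shift (D0 : S →₀ ℤ) (n : ℕ) :
    (QuotientAddGroup.mk (shift A D0 n) : A.Cl) = (A.cl0 D0 : A.Cl) + n • A.c0 := by
  rw [shift, QuotientAddGroup.mk_add, coe_cl0, c0, ← QuotientAddGroup.mk_nsmul]
  congr 2
  rw [Finsupp.smul_single]
  simp

theorem stable_shift (D0 : S →₀ ℤ) (h : A.phi0 (A.cl0 D0) = A.cl0 D0) (n : ℕ) :
    Finsupp.domCongr (A.φ ^ 1) (shift A D0 n) - shift A D0 n ∈ A.Prin := by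
  have h1 : A.phiCl (A.cl0 D0 : A.Cl) = (A.cl0 D0 : A.Cl) := by
    rw [← coe_phi0, h]
  rw [coe_cl0, phiCl_mk, QuotientAddGroup.eq_iff_sub_mem] at h1
  rw [pow_one, shift, map_add, domCongr_single_s0]
  have h2 : Finsupp.domCongr A.φ (D0 - Finsupp.single A.s0 (degHom S D0)) +
      Finsupp.single A.s0 (n : ℤ) - (D0 - Finsupp.single A.s0 (degHom S D0) +
      Finsupp.single A.s0 (n : ℤ)) = Finsupp.domCongr A.φ (D0 - Finsupp.single A.s0 (degHom S D0))
        - (D0 - Finsupp.single A.s0 (degHom S D0)) := by abel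
  rw [h2]
  exact h1

theorem mem_iff (D0 : S →₀ ℤ) (n : ℕ) (E : S →₀ ℤ) :
    (E ∈ effSet A.φ n ∧ A.cl0 E = A.cl0 D0) ↔
      (0 ≤ E ∧ Finsupp.domCongr (A.φ ^ 1) E = E ∧ E - shift A D0 n ∈ A.Prin) := by
  rw [pow_one]
  constructor
  · rintro ⟨⟨h0, hst, hdeg⟩, hcl⟩
    refine ⟨h0, hst, ?_⟩
    rw [cl0_eq_iff, hdeg] at hcl
    have : E - shift A D0 n = E - Finsupp.single A.s0 (n : ℤ) -
        (D0 - Finsupp.single A.s0 (degHom S D0)) := by rw [shift]; abel
    rw [this]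
    exact hcl
  · rintro ⟨h0, hst, hP⟩
    have hdeg : degHom S E = n := by
      have := A.deg_prin _ hP
      rw [map_sub, deg_shift] at this
      linarith
    refine ⟨⟨h0, hst, hdeg⟩, ?_⟩
    rw [cl0_eq_iff, hdeg]
    have : E - shift A D0 n = E - Finsupp.single A.s0 (n : ℤ) -
        (D0 - Finsupp.single A.s0 (degHom S D0)) := by rw [shift]; abel
    rw [← this]
    exact hP

end CountA

open CountA

/-- the number of stable effective divisors of degree `n` in a stable class. -/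
theorem fibre_count (a : A.Cl0) (ha : A.phi0 a = a) (n : ℕ) :
    (A.q - 1) * Nat.card {E : S →₀ ℤ // E ∈ effSet A.φ n ∧ A.cl0 E = a} =
      A.q ^ A.lCl ((a : A.Cl) + n • A.c0) - 1 := by
  obtain ⟨D0, rfl⟩ := A.cl0_surjective a
  have h := A.count 1 one_pos (shift A D0 n) (stable_shift A D0 ha n)
  rw [pow_one, one_mul] at h
  rw [← mk_shift, lCl_mk, ← h]
  congr 1
  exact Nat.card_congr (Equiv.subtypeEquivRight fun E => mem_iff A D0 n E)

/-- **STEP 1**: `A_1` is finite. -/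
theorem finite_fix_cl0 : {c : A.Cl0 | A.phi0 c = c}.Finite := by
  refine ((effSet_finite A.φ A.finite_fix A.g).image A.cl0).subset ?_
  intro a ha
  have ha' : A.phi0 a = a := ha
  have h := A.fibre_count a ha' A.g
  obtain ⟨D0, hD0⟩ := A.cl0_surjective a
  have hl : 0 < A.lCl ((a : A.Cl) + A.g • A.c0) := by
    rw [← hD0, ← mk_shift, lCl_mk]
    have hrr := A.rr (shift A D0 A.g)
    rw [deg_shift] at hrr
    have : (0 : ℤ) < A.l (shift A D0 A.g) := by
      have h0 : (0 : ℤ) ≤ A.l (A.W - shift A D0 A.g) := Int.natCast_nonneg _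
      linarith
    exact_mod_cast this
  have hpos : 0 < A.q ^ A.lCl ((a : A.Cl) + A.g • A.c0) - 1 := by
    have : 1 < A.q ^ A.lCl ((a : A.Cl) + A.g • A.c0) := Nat.one_lt_pow hl.ne' A.one_lt_q
    omega
  rw [← h] at hpos
  have hcard : 0 < Nat.card {E : S →₀ ℤ // E ∈ effSet A.φ A.g ∧ A.cl0 E = a} :=
    Nat.pos_of_mul_pos_left hpos |> fun _ => Nat.pos_of_ne_zero (by
      intro h0
      rw [h0, mul_zero] at hpos
      exact lt_irrefl _ hpos)
  obtain ⟨⟨E, hE, hEa⟩⟩ := (Nat.card_pos_iff.1 hcard).1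
  exact ⟨E, hE, hEa⟩

theorem coeff_Z_zero : A.Z.coeff 0 = 1 := by
  rw [Z, wZ, coeff_mk, effSet_zero]
  simp

end AZData

end Fermat.Agent.S27.AZ
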