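import Mathlib
import Fermat.Agent.S27.AZ.Defs
import Fermat.Agent.S27.AZ.PowDef
import Fermat.Agent.S27.AZ.EffFinite
import Fermat.Agent.S27.AZ.Basic
import Fermat.Agent.S27.AZ.BasicCl
import Fermat.Agent.S27.AZ.CountA

set_option autoImplicit false

noncomputable section

namespace Fermat.Agent.S27.AZ

namespace AZData

open PowerSeries

variable {S : Type*} (A : AZData S)

variable {R : Type*} [CommRing R]

namespace CountB

open CountA

theorem cast_fibre_count (a : A.Cl0) (ha : A.phi0 a = a) (n : ℕ) :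
    ((A.q : R) - 1) * (Nat.card {E : S →₀ ℤ // E ∈ effSet A.φ n ∧ A.cl0 E = a} : R) =
      (A.q : R) ^ A.lCl ((a : A.Cl) + n • A.c0) - 1 := by
  have h := congrArg (Nat.cast : ℕ → R) (A.fibre_count a ha n)
  rw [Nat.cast_mul, Nat.cast_sub A.one_lt_q.le, Nat.cast_sub (Nat.one_le_pow _ _
    (Nat.zero_lt_of_lt A.one_lt_q)), Nat.cast_pow, Nat.cast_one] at h
  exact h

theorem lCl_large (a : A.Cl0) (n : ℕ) (hn : 2 * A.g ≤ n + 1) :
    A.lCl ((a : A.Cl) + n • A.c0) = n + 1 - A.g := by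
  obtain ⟨D0, rfl⟩ := A.cl0_surjective a
  rw [← mk_shift, lCl_mk]
  have h := A.l_of_le_deg (D := shift A D0 n) (by rw [deg_shift]; omega)
  rw [deg_shift] at h
  omega

theorem card_fibre_eq_card_filter [DecidableEq A.Cl0] {n : ℕ}
    (hfinE : (effSet A.φ n).Finite) (a : A.Cl0) :
    Nat.card {E : S →₀ ℤ // E ∈ effSet A.φ n ∧ A.cl0 E = a} =
      (hfinE.toFinset.filter fun E => A.cl0 E = a).card := by
  rw [← Nat.card_eq_finsetCard]
  refine Nat.card_congr (Equiv.subtypeEquivRight fun E => ?_)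
  rw [Finset.mem_filter, Set.Finite.mem_toFinset]

theorem sum_one_fix : ∑ᶠ a ∈ {a : A.Cl0 | A.phi0 a = a}, (1 : ℤ) = A.h 1 := by
  rw [finsum_mem_eq_finite_toFinset_sum _ A.finite_fix_cl0, Finset.sum_const, nsmul_eq_mul, mul_one,
    h, ← Set.ncard_eq_toFinset_card _ A.finite_fix_cl0, ← Nat.card_coe_set_eq]
  simp only [pow_one]
  rfl

end CountB

open CountB CountA

theorem weighted_count (f : A.Cl0 → R) (n : ℕ) :
    ((A.q : R) - 1) * ∑ᶠ E ∈ effSet A.φ n, f (A.cl0 E) =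
      ∑ᶠ a ∈ {a : A.Cl0 | A.phi0 a = a},
        f a * ((A.q : R) ^ A.lCl ((a : A.Cl) + n • A.c0) - 1) := by
  classical
  have hfinE := effSet_finite A.φ A.finite_fix n
  rw [finsum_mem_eq_finite_toFinset_sum _ hfinE,
    finsum_mem_eq_finite_toFinset_sum _ A.finite_fix_cl0]
  have hmaps : ∀ E ∈ hfinE.toFinset, A.cl0 E ∈ A.finite_fix_cl0.toFinset := by
    intro E hE
    rw [Set.Finite.mem_toFinset] at hE ⊢
    exact A.phi0_cl0_of_stable hE.2.1
  rw [← Finset.sum_fiberwise_of_maps_to hmaps, Finset.mul_sum]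
  refine Finset.sum_congr rfl fun a ha => ?_
  rw [Set.Finite.mem_toFinset] at ha
  have h1 : ∑ E ∈ hfinE.toFinset with A.cl0 E = a, f (A.cl0 E) =
      (Nat.card {E : S →₀ ℤ // E ∈ effSet A.φ n ∧ A.cl0 E = a} : R) * f a := by
    rw [Finset.sum_congr rfl (g := fun _ => f a) (fun E hE => by rw [(Finset.mem_filter.1 hE).2]),
      Finset.sum_const, nsmul_eq_mul]
    congr 2
    rw [← card_fibre_eq_card_filter A hfinE a]
  rw [h1, ← mul_assoc, cast_fibre_count A a ha n, mul_comm]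

theorem weighted_count_large (f : A.Cl0 → R) (n : ℕ) (hn : 2 * A.g ≤ n + 1) :
    ((A.q : R) - 1) * ∑ᶠ E ∈ effSet A.φ n, f (A.cl0 E) =
      ((A.q : R) ^ (n + 1 - A.g) - 1) * ∑ᶠ a ∈ {a : A.Cl0 | A.phi0 a = a}, f a := by
  rw [weighted_count, finsum_mem_eq_finite_toFinset_sum _ A.finite_fix_cl0,
    finsum_mem_eq_finite_toFinset_sum _ A.finite_fix_cl0, Finset.mul_sum]
  refine Finset.sum_congr rfl fun a _ => ?_
  rw [lCl_large A a n hn, mul_comm]

theorem count_large (n : ℕ) (hn : 2 * A.g ≤ n + 1) :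
    ((A.q : ℤ) - 1) * A.Z.coeff n = A.h 1 * ((A.q : ℤ) ^ (n + 1 - A.g) - 1) := by
  have h := A.weighted_count_large (R := ℤ) (fun _ => 1) n hn
  rw [sum_one_fix] at h
  rw [Z, wZ, coeff_mk, h, mul_comm]

theorem count_canonical (hg : 1 ≤ A.g) :
    ((A.q : ℤ) - 1) * A.Z.coeff (2 * A.g - 2) =
      (A.q : ℤ) ^ A.g + ((A.h 1 : ℤ) - 1) * (A.q : ℤ) ^ (A.g - 1) - A.h 1 := by
  classical
  have h := A.weighted_count (R := ℤ) (fun _ => 1) (2 * A.g - 2)
  rw [Z, wZ, coeff_mk, h, finsum_mem_eq_finite_toFinset_sum _ A.finite_fix_cl0]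
  have hcast : ((2 * A.g - 2 : ℕ) : ℤ) = 2 * (A.g : ℤ) - 2 := by omega
  have hWfix : A.cl0 A.W ∈ A.finite_fix_cl0.toFinset := by
    rw [Set.Finite.mem_toFinset]
    show A.phi0 (A.cl0 A.W) = A.cl0 A.W
    have h1 := A.cl0_domCongr_pow 1 A.W
    rw [pow_one, pow_one] at h1
    rw [← h1, cl0_eq_iff, degHom_domCongr]
    have : Finsupp.domCongr A.φ A.W - Finsupp.single A.s0 (degHom S A.W) -
        (A.W - Finsupp.single A.s0 (degHom S A.W)) = Finsupp.domCongr A.φ A.W - A.W := by abel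
    rw [this]
    exact A.push_W_sub_W_mem
  have hl : ∀ a : A.Cl0, (A.lCl ((a : A.Cl) + (2 * A.g - 2) • A.c0) : ℤ) =
      if a = A.cl0 A.W then (A.g : ℤ) else A.g - 1 := by
    intro a
    obtain ⟨D0, rfl⟩ := A.cl0_surjective a
    rw [← mk_shift, lCl_mk]
    have hiff : A.cl0 D0 = A.cl0 A.W ↔ shift A D0 (2 * A.g - 2) - A.W ∈ A.Prin := by
      rw [cl0_eq_iff, A.deg_W, shift, hcast]
      have : D0 - Finsupp.single A.s0 (degHom S D0) - (A.W - Finsupp.single A.s0 (2 * (A.g : ℤ) - 2))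
          = D0 - Finsupp.single A.s0 (degHom S D0) + Finsupp.single A.s0 (2 * (A.g : ℤ) - 2) - A.W := by
        abel
      rw [this]
    split_ifs with hW
    · rw [A.l_of_sub_W_mem (hiff.1 hW)]
    · exact A.l_of_sub_W_not_mem (by rw [deg_shift, hcast]) (fun hc => hW (hiff.2 hc))
  have hl' : ∀ a : A.Cl0, A.lCl ((a : A.Cl) + (2 * A.g - 2) • A.c0) =
      if a = A.cl0 A.W then A.g else A.g - 1 := by
    intro a
    have := hl a
    split_ifs at this ⊢ with hW <;> omega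
  rw [← Finset.add_sum_erase _ _ hWfix, hl', if_pos rfl]
  have herase : ∑ a ∈ A.finite_fix_cl0.toFinset.erase (A.cl0 A.W),
      (1 : ℤ) * ((A.q : ℤ) ^ A.lCl ((a : A.Cl) + (2 * A.g - 2) • A.c0) - 1) =
      ((A.h 1 : ℤ) - 1) * ((A.q : ℤ) ^ (A.g - 1) - 1) := by
    rw [Finset.sum_congr rfl (g := fun _ => (A.q : ℤ) ^ (A.g - 1) - 1) (fun a ha => by
      rw [hl', if_neg (Finset.ne_of_mem_erase ha), one_mul]), Finset.sum_const,
      Finset.card_erase_of_mem hWfix, nsmul_eq_mul]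
    congr 1
    have hcard : (A.finite_fix_cl0.toFinset.card : ℤ) = A.h 1 := by
      have := sum_one_fix A
      rw [finsum_mem_eq_finite_toFinset_sum _ A.finite_fix_cl0, Finset.sum_const, nsmul_eq_mul,
        mul_one] at this
      exact this
    have hpos : 1 ≤ A.finite_fix_cl0.toFinset.card := Finset.card_pos.2 ⟨_, hWfix⟩
    rw [Nat.cast_sub hpos, hcard, Nat.cast_one]
  rw [herase]
  ring

end AZData

end Fermat.Agent.S27.AZ
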