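import Mathlib
import Fermat.Agent.S27.AZ.Defs
import Fermat.Agent.S27.AZ.EffFinite

set_option autoImplicit false

noncomputable section

namespace Fermat.Agent.S27.AZ

open PowerSeries

namespace LogDeriv

variable {S : Type*} (φ : Equiv.Perm S)

open Classical in
theorem nmDiv_apply (d : ℕ) (s t : S) :
    nmDiv φ d s t = ∑ i ∈ Finset.range d, if (φ ^ i) s = t then (1 : ℤ) else 0 := by
  simp [nmDiv, Finsupp.finsetSum_apply, Finsupp.single_apply]

theorem nmDiv_add (a b : ℕ) (s : S) :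
    nmDiv φ (a + b) s = nmDiv φ a s + nmDiv φ b ((φ ^ a) s) := by
  unfold nmDiv
  rw [Finset.sum_range_add]
  congr 1
  refine Finset.sum_congr rfl fun i _ => ?_
  rw [← Equiv.Perm.mul_apply, ← pow_add, add_comm]

theorem pow_mul_apply_of_fix {o : ℕ} {s : S} (ho : (φ ^ o) s = s) (i : ℕ) :
    (φ ^ (i * o)) s = s := by
  rw [mul_comm, pow_mul]
  exact Equiv.Perm.pow_apply_eq_self_of_apply_eq_self ho i

theorem nmDiv_mul_period {o : ℕ} {s : S} (ho : (φ ^ o) s = s) (i : ℕ) :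
    nmDiv φ (i * o) s = i • nmDiv φ o s := by
  induction i with
  | zero => simp [nmDiv]
  | succ i ih => rw [Nat.succ_mul, nmDiv_add, ih, succ_nsmul, pow_mul_apply_of_fix φ ho]

theorem one_le_nmDiv_self {d : ℕ} (hd : 0 < d) (s : S) : 1 ≤ nmDiv φ d s s := by
  classical
  rw [nmDiv_apply]
  have h0 : (0 : ℕ) ∈ Finset.range d := Finset.mem_range.2 hd
  have := Finset.single_le_sum (f := fun i => if (φ ^ i) s = s then (1 : ℤ) else 0)
    (fun i _ => by split_ifs <;> norm_num) h0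
  simpa using this

theorem exists_of_nmDiv_ne_zero {d : ℕ} {s t : S} (h : nmDiv φ d s t ≠ 0) :
    ∃ j, (φ ^ j) s = t := by
  classical
  rw [nmDiv_apply] at h
  obtain ⟨j, _, hj⟩ := Finset.exists_ne_zero_of_sum_ne_zero h
  refine ⟨j, ?_⟩
  by_contra hne
  exact hj (if_neg hne)

theorem nmDiv_minimalPeriod_le_one (s t : S) :
    nmDiv φ (Function.minimalPeriod φ s) s t ≤ 1 := by
  classical
  rw [nmDiv_apply, Finset.sum_boole]
  have : ((Finset.range (Function.minimalPeriod φ s)).filter fun i => (φ ^ i) s = t).card ≤ 1 := by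
    rw [Finset.card_le_one]
    intro a ha b hb
    rw [Finset.mem_filter, Finset.mem_range] at ha hb
    apply Function.iterate_injOn_Iio_minimalPeriod (f := φ) (x := s) ha.1 hb.1
    show φ^[a] s = φ^[b] s
    rw [Equiv.Perm.iterate_eq_pow, Equiv.Perm.iterate_eq_pow, ha.2, hb.2]
  exact_mod_cast this

theorem fix_iff_dvd (d : ℕ) (s : S) : (φ ^ d) s = s ↔ Function.minimalPeriod φ s ∣ d := by
  rw [← Function.isPeriodicPt_iff_minimalPeriod_dvd]
  unfold Function.IsPeriodicPt Function.IsFixedPt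
  rw [Equiv.Perm.iterate_eq_pow]

theorem deg_le_of_le {D E : S →₀ ℤ} (h : D ≤ E) : degHom S D ≤ degHom S E := by
  have := deg_nonneg_of_nonneg (E := E - D) (sub_nonneg.2 h)
  rw [map_sub] at this
  omega

/-- `i • orb(s) ≤ E ↔ i ≤ E s` for a stable effective divisor `E`. -/
theorem nsmul_orb_le_iff {E : S →₀ ℤ} (hE0 : 0 ≤ E) (hE : Finsupp.domCongr φ E = E) {s : S}
    (ho : 0 < Function.minimalPeriod φ s) (i : ℕ) :
    i • nmDiv φ (Function.minimalPeriod φ s) s ≤ E ↔ (i : ℤ) ≤ E s := by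
  constructor
  · intro h
    have h1 := h s
    rw [Finsupp.smul_apply, nsmul_eq_mul] at h1
    have h2 := one_le_nmDiv_self φ ho s
    nlinarith
  · intro h t
    rw [Finsupp.smul_apply, nsmul_eq_mul]
    by_cases h0 : nmDiv φ (Function.minimalPeriod φ s) s t = 0
    · rw [h0, mul_zero]; exact hE0 t
    · obtain ⟨j, rfl⟩ := exists_of_nmDiv_ne_zero φ h0
      rw [apply_pow_of_stable φ hE]
      have h1 := nmDiv_minimalPeriod_le_one φ s ((φ ^ j) s)
      have h2 : (0 : ℤ) ≤ i := Int.natCast_nonneg i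
      nlinarith

open Classical in
/-- the number of `d` with `s ∈ Fix φ^d` and `Nm_d s ≤ E` is `E s`. -/
theorem card_filter_eq {n : ℕ} {E : S →₀ ℤ} (hE : E ∈ effSet φ n) (s : S) :
    (((Finset.Icc 1 n).filter fun d => (φ ^ d) s = s ∧ nmDiv φ d s ≤ E).card : ℤ) = E s := by
  obtain ⟨hE0, hEs, hEd⟩ := hE
  rcases (hE0 s).eq_or_lt with h0 | hpos
  · have h0' : E s = 0 := h0.symm
    rw [h0', Nat.cast_eq_zero, Finset.card_eq_zero, Finset.filter_eq_empty_iff]
    rintro d hd ⟨-, hle⟩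
    have h1 := one_le_nmDiv_self φ (Finset.mem_Icc.1 hd).1 s
    have h2 := hle s
    omega
  · have hpos' : 0 < E s := hpos
    have hs : s ∈ E.support := Finsupp.mem_support_iff.2 hpos'.ne'
    obtain ⟨d₀, hd₀, -, hfix⟩ := exists_fix_of_mem_support φ (n := n) ⟨hE0, hEs, hEd⟩ hs
    set o := Function.minimalPeriod φ s with ho
    have hdvd₀ : o ∣ d₀ := (fix_iff_dvd φ d₀ s).1 hfix
    have hopos : 0 < o := Nat.pos_of_dvd_of_pos hdvd₀ hd₀
    have hofix : (φ ^ o) s = s := (fix_iff_dvd φ o s).2 dvd_rfl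
    have hset : ((Finset.Icc 1 n).filter fun d => (φ ^ d) s = s ∧ nmDiv φ d s ≤ E)
        = (Finset.Icc 1 (E s).toNat).image (fun i => i * o) := by
      ext d
      simp only [Finset.mem_filter, Finset.mem_Icc, Finset.mem_image]
      constructor
      · rintro ⟨⟨hd1, -⟩, hdfix, hle⟩
        obtain ⟨i, rfl⟩ := (fix_iff_dvd φ d s).1 hdfix
        rw [← ho] at hle hd1
        rw [mul_comm, nmDiv_mul_period φ hofix, ho, nsmul_orb_le_iff φ hE0 hEs hopos] at hle
        refine ⟨i, ⟨?_, ?_⟩, mul_comm _ _⟩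
        · rcases Nat.eq_zero_or_pos i with rfl | h
          · simp at hd1
          · exact h
        · omega
      · rintro ⟨i, ⟨hi1, hi2⟩, rfl⟩
        have hle : nmDiv φ (i * o) s ≤ E := by
          rw [nmDiv_mul_period φ hofix, ho, nsmul_orb_le_iff φ hE0 hEs hopos]
          omega
        refine ⟨⟨Nat.mul_pos hi1 hopos, ?_⟩, pow_mul_apply_of_fix φ hofix i, hle⟩
        have := deg_le_of_le hle
        rw [deg_nmDiv, hEd] at this
        exact_mod_cast this
    rw [hset, Finset.card_image_of_injective _ (fun a b hab => Nat.eq_of_mul_eq_mul_right hopos hab),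
      Nat.card_Icc]
    simp only [Nat.add_sub_cancel]
    omega

open Classical in
/-- translation by `Nm_d s`. -/
theorem sum_translate {R : Type*} [AddCommMonoid R] (hfin : ∀ m, 0 < m → (fixSet φ m).Finite)
    (w : (S →₀ ℤ) → R) {n d : ℕ} (hd : d ≤ n) {s : S} (hs : (φ ^ d) s = s) :
    ∑ E' ∈ (effSet_finite φ hfin (n - d)).toFinset, w (nmDiv φ d s + E')
      = ∑ E ∈ (effSet_finite φ hfin n).toFinset.filter (fun E => nmDiv φ d s ≤ E), w E := by
  have hst : Finsupp.domCongr φ (nmDiv φ d s) = nmDiv φ d s := nmDiv_stable φ hs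
  refine Finset.sum_nbij' (fun E' => nmDiv φ d s + E') (fun E => E - nmDiv φ d s) ?_ ?_ ?_ ?_ ?_
  · intro E' hE'
    rw [Set.Finite.mem_toFinset] at hE'
    obtain ⟨h0, h1, h2⟩ := hE'
    rw [Finset.mem_filter, Set.Finite.mem_toFinset]
    refine ⟨⟨add_nonneg (nmDiv_nonneg φ d s) h0, ?_, ?_⟩, le_add_of_nonneg_right h0⟩
    · rw [map_add, hst, h1]
    · rw [map_add, deg_nmDiv, h2]; push_cast [hd]; ring
  · intro E hE
    rw [Finset.mem_filter, Set.Finite.mem_toFinset] at hE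
    obtain ⟨⟨h0, h1, h2⟩, hle⟩ := hE
    rw [Set.Finite.mem_toFinset]
    refine ⟨sub_nonneg.2 hle, ?_, ?_⟩
    · rw [map_sub, hst, h1]
    · rw [map_sub, deg_nmDiv, h2]; push_cast [hd]; ring
  · intro E' _; simp
  · intro E _; simp
  · intro E' _; rfl

end LogDeriv

variable {S : Type*} (φ : Equiv.Perm S) {R : Type*} [CommRing R]

open LogDeriv in
/-- **STEP 3**: the weighted logarithmic derivative identity, coefficientwise. -/
theorem logDeriv_coeff (hfin : ∀ m, 0 < m → (fixSet φ m).Finite) (w : (S →₀ ℤ) → R)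
    (hw : ∀ E E' : S →₀ ℤ, 0 ≤ E → 0 ≤ E' → Finsupp.domCongr φ E = E →
      Finsupp.domCongr φ E' = E' → w (E + E') = w E * w E') (n : ℕ) :
    (n : R) * ∑ᶠ E ∈ effSet φ n, w E =
      ∑ d ∈ Finset.Icc 1 n,
        (∑ᶠ s ∈ fixSet φ d, w (nmDiv φ d s)) * ∑ᶠ E ∈ effSet φ (n - d), w E := by
  classical
  set Eff : ℕ → Finset (S →₀ ℤ) := fun m => (effSet_finite φ hfin m).toFinset with hEff
  set U : Finset S := (Finset.Icc 1 n).biUnion
    (fun d => if h : 0 < d then (hfin d h).toFinset else ∅) with hUdef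
  have hU : ∀ d ∈ Finset.Icc 1 n, ∀ s, (φ ^ d) s = s → s ∈ U := by
    intro d hd s hs
    rw [hUdef, Finset.mem_biUnion]
    refine ⟨d, hd, ?_⟩
    rw [dif_pos (show 0 < d from (Finset.mem_Icc.1 hd).1), Set.Finite.mem_toFinset]
    exact hs
  have hZ : ∀ m, ∑ᶠ E ∈ effSet φ m, w E = ∑ E ∈ Eff m, w E := fun m =>
    finsum_mem_eq_finite_toFinset_sum _ _
  have hN : ∀ d ∈ Finset.Icc 1 n, ∑ᶠ s ∈ fixSet φ d, w (nmDiv φ d s)
      = ∑ s ∈ U.filter (fun s => (φ ^ d) s = s), w (nmDiv φ d s) := by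
    intro d hd
    have : fixSet φ d = ↑(U.filter (fun s => (φ ^ d) s = s)) := by
      ext s
      simp only [fixSet, Set.mem_ofPred_eq, Finset.coe_filter]
      exact ⟨fun h => ⟨hU d hd s h, h⟩, fun h => h.2⟩
    rw [this, finsum_mem_coe_finset]
  have hstep : ∀ d ∈ Finset.Icc 1 n,
      (∑ᶠ s ∈ fixSet φ d, w (nmDiv φ d s)) * ∑ᶠ E ∈ effSet φ (n - d), w E
        = ∑ s ∈ U, ∑ E ∈ Eff n, if (φ ^ d) s = s ∧ nmDiv φ d s ≤ E then w E else 0 := by
    intro d hd
    rw [hN d hd, hZ, Finset.sum_mul, Finset.sum_filter]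
    refine Finset.sum_congr rfl fun s _ => ?_
    split_ifs with hs
    · rw [Finset.mul_sum]
      have h1 : ∑ E' ∈ Eff (n - d), w (nmDiv φ d s) * w E'
          = ∑ E' ∈ Eff (n - d), w (nmDiv φ d s + E') := by
        refine Finset.sum_congr rfl fun E' hE' => ?_
        rw [hEff, Set.Finite.mem_toFinset] at hE'
        exact (hw _ _ (nmDiv_nonneg φ d s) hE'.1 (nmDiv_stable φ hs) hE'.2.1).symm
      rw [h1, sum_translate φ hfin w (Finset.mem_Icc.1 hd).2 hs, Finset.sum_filter]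
      refine Finset.sum_congr rfl fun E _ => ?_
      simp only [hs, true_and]
    · simp only [hs, false_and, if_false, Finset.sum_const_zero]
  rw [Finset.sum_congr rfl hstep, hZ, Finset.mul_sum]
  rw [Finset.sum_comm]
  have : ∀ s ∈ U, ∑ d ∈ Finset.Icc 1 n, ∑ E ∈ Eff n,
      (if (φ ^ d) s = s ∧ nmDiv φ d s ≤ E then w E else 0)
        = ∑ E ∈ Eff n, ((E s : ℤ) : R) * w E := by
    intro s _
    rw [Finset.sum_comm]
    refine Finset.sum_congr rfl fun E hE => ?_
    rw [hEff, Set.Finite.mem_toFinset] at hE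
    rw [← Finset.sum_filter, Finset.sum_const, nsmul_eq_mul, ← card_filter_eq φ hE s]
    push_cast
    rfl
  rw [Finset.sum_congr rfl this, Finset.sum_comm]
  refine Finset.sum_congr rfl fun E hE => ?_
  rw [hEff, Set.Finite.mem_toFinset] at hE
  rw [← Finset.sum_mul]
  congr 1
  have hsub : E.support ⊆ U := by
    intro s hs
    obtain ⟨d, hd1, hd2, hfix⟩ := exists_fix_of_mem_support φ hE hs
    exact hU d (Finset.mem_Icc.2 ⟨hd1, hd2⟩) s hfix
  have hdeg : degHom S E = ∑ s ∈ U, E s := by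
    rw [degHom_apply]
    exact Finsupp.sum_of_support_subset E hsub _ (fun _ _ => rfl)
  rw [← Int.cast_sum, ← hdeg, hE.2.2]
  simp

/-- **STEP 3**, power series form. -/
theorem logDeriv_wZ (hfin : ∀ m, 0 < m → (fixSet φ m).Finite) (w : (S →₀ ℤ) → R)
    (hw : ∀ E E' : S →₀ ℤ, 0 ≤ E → 0 ≤ E' → Finsupp.domCongr φ E = E →
      Finsupp.domCongr φ E' = E' → w (E + E') = w E * w E') :
    X * d⁄dX R (wZ φ w) = wZ φ w * wN φ w := by
  ext n
  have hR : coeff n (wZ φ w * wN φ w) = ∑ d ∈ Finset.Icc 1 n,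
      (∑ᶠ s ∈ fixSet φ d, w (nmDiv φ d s)) * ∑ᶠ E ∈ effSet φ (n - d), w E := by
    rw [mul_comm, coeff_mul, Finset.Nat.sum_antidiagonal_eq_sum_range_succ_mk]
    symm
    refine Finset.sum_subset_zero_on_sdiff ?_ ?_ ?_
    · intro d hd
      rw [Finset.mem_Icc] at hd
      exact Finset.mem_range.2 (by omega)
    · intro d hd
      rw [Finset.mem_sdiff, Finset.mem_range, Finset.mem_Icc] at hd
      have hd0 : d = 0 := by omega
      subst hd0
      simp [wN]
    · intro d hd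
      rw [Finset.mem_Icc] at hd
      have hd0 : d ≠ 0 := by omega
      simp [wN, wZ, hd0]
  rw [hR, ← logDeriv_coeff φ hfin w hw n]
  cases n with
  | zero => simp
  | succ m =>
    rw [coeff_succ_X_mul, coeff_derivative]
    simp only [wZ, coeff_mk]
    push_cast
    ring

theorem constantCoeff_wZ (w : (S →₀ ℤ) → R) : constantCoeff (wZ φ w) = w 0 := by
  rw [← coeff_zero_eq_constantCoeff_apply]
  simp only [wZ, coeff_mk]
  rw [effSet_zero, finsum_mem_singleton]

end Fermat.Agent.S27.AZ
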