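import Mathlib
import Fermat.Agent.S27.AZ.Defs

set_option autoImplicit false

noncomputable section

namespace Fermat.Agent.S27.AZ

open PowerSeries

namespace Lpoly

/-- the series `(1 - X)(1 - qX) ∑ e(n) X^n`. -/
def ser (q : ℕ) (e : ℕ → ℤ) : PowerSeries ℤ := (1 - X) * (1 - C (q : ℤ) * X) * PowerSeries.mk e

theorem ser_eq (q : ℕ) (e : ℕ → ℤ) :
    ser q e = PowerSeries.mk e - C ((q : ℤ) + 1) * (X * PowerSeries.mk e)
      + C (q : ℤ) * (X * (X * PowerSeries.mk e)) := by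
  unfold ser
  simp only [map_add, map_one]
  ring

theorem coeff_zero_ser (q : ℕ) (e : ℕ → ℤ) : coeff 0 (ser q e) = e 0 := by
  rw [ser_eq]
  simp [coeff_C_mul, coeff_zero_X_mul, coeff_mk]

theorem coeff_one_ser (q : ℕ) (e : ℕ → ℤ) : coeff 1 (ser q e) = e 1 - ((q : ℤ) + 1) * e 0 := by
  rw [ser_eq]
  have h1 : coeff 1 (X * PowerSeries.mk e) = e 0 := by
    rw [show (1 : ℕ) = 0 + 1 from rfl, coeff_succ_X_mul, coeff_mk]
  have h2 : coeff 1 (X * (X * PowerSeries.mk e)) = 0 := by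
    rw [show (1 : ℕ) = 0 + 1 from rfl, coeff_succ_X_mul, coeff_zero_X_mul]
  rw [map_add, map_sub, coeff_C_mul, coeff_C_mul, h1, h2, coeff_mk]
  ring

theorem coeff_add_two_ser (q : ℕ) (e : ℕ → ℤ) (m : ℕ) :
    coeff (m + 2) (ser q e) = e (m + 2) - ((q : ℤ) + 1) * e (m + 1) + q * e m := by
  rw [ser_eq]
  have h1 : coeff (m + 2) (X * PowerSeries.mk e) = e (m + 1) := by
    rw [show m + 2 = (m + 1) + 1 from rfl, coeff_succ_X_mul, coeff_mk]
  have h2 : coeff (m + 2) (X * (X * PowerSeries.mk e)) = e m := by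
    rw [show m + 2 = (m + 1) + 1 from rfl, coeff_succ_X_mul, coeff_succ_X_mul, coeff_mk]
  rw [map_add, map_sub, coeff_C_mul, coeff_C_mul, h1, h2, coeff_mk]

theorem sum_coeff (q : ℕ) (e : ℕ → ℤ) (N : ℕ) :
    ∑ n ∈ Finset.range (N + 2), coeff n (ser q e) = e (N + 1) - q * e N := by
  induction N with
  | zero =>
    rw [Finset.sum_range_succ, Finset.sum_range_one, coeff_zero_ser, coeff_one_ser]
    ring
  | succ N ih =>
    rw [Finset.sum_range_succ, ih, coeff_add_two_ser]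
    ring

end Lpoly

/-- **STEP 2**, pure power series form. -/
theorem exists_Lpoly (q g h : ℕ) (hq : 1 < q) (hg : 1 ≤ g) (e : ℕ → ℤ) (e0 : e 0 = 1)
    (h1 : ∀ n, 2 * g ≤ n + 1 → ((q : ℤ) - 1) * e n = h * ((q : ℤ) ^ (n + 1 - g) - 1))
    (h2 : ((q : ℤ) - 1) * e (2 * g - 2) = (q : ℤ) ^ g + ((h : ℤ) - 1) * (q : ℤ) ^ (g - 1) - h) :
    ∃ L : Polynomial ℤ, L.natDegree ≤ 2 * g ∧
      (L : PowerSeries ℤ) = (1 - X) * (1 - C (q : ℤ) * X) * PowerSeries.mk e ∧
      L.coeff 0 = 1 ∧ L.coeff (2 * g) = (q : ℤ) ^ g ∧ L.eval 1 = h := by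
  obtain ⟨g', rfl⟩ : ∃ g', g = g' + 1 := ⟨g - 1, by omega⟩
  have hq1 : ((q : ℤ) - 1) ≠ 0 := by
    have : (1 : ℤ) < q := by exact_mod_cast hq
    omega
  change ∃ L : Polynomial ℤ, L.natDegree ≤ 2 * (g' + 1) ∧ (L : PowerSeries ℤ) = Lpoly.ser q e ∧ _
  -- values of `e`
  have ha : ∀ a : ℕ, ((q : ℤ) - 1) * e (a + g') = h * ((q : ℤ) ^ a - 1) ∨ a < g' + 1 := by
    intro a
    by_cases hlt : a < g' + 1
    · exact Or.inr hlt
    · left
      have := h1 (a + g') (by omega)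
      rwa [show a + g' + 1 - (g' + 1) = a by omega] at this
  have ha' : ∀ a : ℕ, g' + 1 ≤ a → ((q : ℤ) - 1) * e (a + g') = h * ((q : ℤ) ^ a - 1) := by
    intro a hle
    rcases ha a with h | h
    · exact h
    · omega
  have hvan : ∀ n, 2 * (g' + 1) + 1 ≤ n → coeff n (Lpoly.ser q e) = 0 := by
    intro n hn
    obtain ⟨a, rfl⟩ : ∃ a, n = (a + g') + 2 := ⟨n - 2 - g', by omega⟩
    rw [Lpoly.coeff_add_two_ser]
    apply mul_left_cancel₀ hq1
    have e1 := ha' a (by omega)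
    have e2 := ha' (a + 1) (by omega)
    have e3 := ha' (a + 2) (by omega)
    rw [show a + 1 + g' = a + g' + 1 by ring] at e2
    rw [show a + 2 + g' = a + g' + 2 by ring] at e3
    rw [mul_zero]
    calc ((q : ℤ) - 1) * (e (a + g' + 2) - ((q : ℤ) + 1) * e (a + g' + 1) + q * e (a + g'))
        = ((q : ℤ) - 1) * e (a + g' + 2) - ((q : ℤ) + 1) * (((q : ℤ) - 1) * e (a + g' + 1))
          + q * (((q : ℤ) - 1) * e (a + g')) := by ring
      _ = 0 := by
        rw [e1, e2, e3]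
        ring
  refine ⟨trunc (2 * (g' + 1) + 1) (Lpoly.ser q e), ?_, ?_, ?_, ?_, ?_⟩
  · exact Nat.lt_succ_iff.mp (natDegree_trunc_lt _ _)
  · ext n
    rw [Polynomial.coeff_coe, coeff_trunc]
    split_ifs with hn
    · rfl
    · exact (hvan n (by omega)).symm
  · rw [coeff_trunc, if_pos (by omega), Lpoly.coeff_zero_ser, e0]
  · rw [coeff_trunc, if_pos (by omega), show 2 * (g' + 1) = 2 * g' + 2 by ring,
      Lpoly.coeff_add_two_ser]
    apply mul_left_cancel₀ hq1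
    have e2 := ha' (g' + 1) (by omega)
    have e3 := ha' (g' + 2) (by omega)
    rw [show g' + 1 + g' = 2 * g' + 1 by ring] at e2
    rw [show g' + 2 + g' = 2 * g' + 2 by ring] at e3
    rw [show 2 * (g' + 1) - 2 = 2 * g' by omega, show g' + 1 - 1 = g' by omega] at h2
    calc ((q : ℤ) - 1) * (e (2 * g' + 2) - ((q : ℤ) + 1) * e (2 * g' + 1) + q * e (2 * g'))
        = ((q : ℤ) - 1) * e (2 * g' + 2) - ((q : ℤ) + 1) * (((q : ℤ) - 1) * e (2 * g' + 1))
          + q * (((q : ℤ) - 1) * e (2 * g')) := by ring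
      _ = ((q : ℤ) - 1) * (q : ℤ) ^ (g' + 1) := by
        rw [h2, e2, e3]
        ring
  · rw [Polynomial.eval_eq_sum_range' (natDegree_trunc_lt _ _)]
    have : ∀ n ∈ Finset.range (2 * (g' + 1) + 1),
        (trunc (2 * (g' + 1) + 1) (Lpoly.ser q e)).coeff n * 1 ^ n = coeff n (Lpoly.ser q e) := by
      intro n hn
      rw [coeff_trunc, if_pos (Finset.mem_range.mp hn), one_pow, mul_one]
    rw [Finset.sum_congr rfl this, show 2 * (g' + 1) + 1 = (2 * g' + 1) + 2 by ring,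
      Lpoly.sum_coeff]
    apply mul_left_cancel₀ hq1
    have e2 := ha' (g' + 1) (by omega)
    have e3 := ha' (g' + 2) (by omega)
    rw [show g' + 1 + g' = 2 * g' + 1 by ring] at e2
    rw [show g' + 2 + g' = 2 * g' + 1 + 1 by ring] at e3
    calc ((q : ℤ) - 1) * (e (2 * g' + 1 + 1) - q * e (2 * g' + 1))
        = ((q : ℤ) - 1) * e (2 * g' + 1 + 1) - q * (((q : ℤ) - 1) * e (2 * g' + 1)) := by ring
      _ = ((q : ℤ) - 1) * h := by
        rw [e2, e3]
        ring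

end Fermat.Agent.S27.AZ
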