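import Mathlib
import Fermat.Agent.S27.AZ.Defs

set_option autoImplicit false

noncomputable section

namespace Fermat.Agent.S27.AZ.MatrixLD

open Matrix

/-- Jacobi's formula (column version) for matrices of polynomials. -/
theorem derivative_det {n : Type*} [Fintype n] [DecidableEq n] {R : Type*} [CommRing R]
    (A : Matrix n n (Polynomial R)) :
    Polynomial.derivative A.det =
      ∑ j, (A.updateCol j fun i => Polynomial.derivative (A i j)).det := by
  simp only [Matrix.det_apply', Polynomial.derivative_sum]
  rw [Finset.sum_comm]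
  refine Finset.sum_congr rfl fun σ _ => ?_
  rw [Polynomial.derivative_mul, Polynomial.derivative_intCast, zero_mul, zero_add,
    Polynomial.derivative_prod_finset, Finset.mul_sum]
  refine Finset.sum_congr rfl fun j₀ _ => ?_
  congr 1
  rw [← Finset.mul_prod_erase _ _ (Finset.mem_univ j₀)]
  simp only [Matrix.updateCol_self]
  rw [mul_comm]
  congr 1
  refine Finset.prod_congr rfl fun j hj => ?_
  rw [Matrix.updateCol_ne (Finset.ne_of_mem_erase hj)]

/-- Jacobi's formula with the adjugate. -/
theorem derivative_det_eq_trace {n : Type*} [Fintype n] [DecidableEq n] {R : Type*} [CommRing R]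
    (A : Matrix n n (Polynomial R)) :
    Polynomial.derivative A.det = Matrix.trace (A.adjugate * A.map Polynomial.derivative) := by
  rw [derivative_det, Matrix.trace]
  refine Finset.sum_congr rfl fun j _ => ?_
  rw [← Matrix.cramer_apply, Matrix.cramer_eq_adjugate_mulVec, Matrix.diag_apply,
    Matrix.mul_apply]
  rfl

end Fermat.Agent.S27.AZ.MatrixLD

namespace Fermat.Agent.S27.AZ

open PowerSeries

/-- **LD**: `T d/dT det(1 - T M) = - det(1 - T M) * ∑_{d ≥ 1} tr(M^d) T^d`. -/
theorem X_mul_derivative_charpolyRev {R : Type*} [CommRing R] {r : ℕ}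
    (M : Matrix (Fin r) (Fin r) R) :
    (X : PowerSeries R) * d⁄dX R (M.charpolyRev : PowerSeries R) =
      (M.charpolyRev : PowerSeries R) * (- trS M) := by
  classical
  -- the polynomial matrix `A = 1 - X M`
  set A : Matrix (Fin r) (Fin r) (Polynomial R) :=
    1 - (Polynomial.X : Polynomial R) • M.map Polynomial.C with hA
  have hP : M.charpolyRev = A.det := rfl
  have hdA : A.map Polynomial.derivative = - M.map Polynomial.C := by
    ext i j
    simp only [hA, Matrix.map_apply, Matrix.sub_apply, Matrix.smul_apply, Matrix.neg_apply,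
      smul_eq_mul, Polynomial.derivative_sub, Polynomial.derivative_mul, Polynomial.derivative_X,
      Polynomial.derivative_C, mul_zero, add_zero, one_mul]
    by_cases hij : i = j
    · subst hij; simp
    · simp [Matrix.one_apply_ne hij]
  have h1 : Polynomial.derivative M.charpolyRev =
      - Matrix.trace (A.adjugate * M.map Polynomial.C) := by
    rw [hP, MatrixLD.derivative_det_eq_trace, hdA, Matrix.mul_neg, Matrix.trace_neg]
  -- pass to power series
  let φ : Polynomial R →+* PowerSeries R := Polynomial.coeToPowerSeries.ringHom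
  have hφ : ∀ f : Polynomial R, φ f = (f : PowerSeries R) := fun f => rfl
  set S : Matrix (Fin r) (Fin r) (PowerSeries R) :=
    Matrix.of fun i j => PowerSeries.mk fun d => (M ^ d) i j with hS
  have hAφ : A.map φ = 1 - (X : PowerSeries R) • M.map (PowerSeries.C (R := R)) := by
    ext i j : 1
    simp only [hA, Matrix.map_apply, Matrix.sub_apply, Matrix.smul_apply, smul_eq_mul, map_sub,
      map_mul]
    congr 1
    · by_cases hij : i = j
      · subst hij; simp
      · simp [Matrix.one_apply_ne hij]
    · rw [hφ, hφ, Polynomial.coe_X, Polynomial.coe_C]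
  have hMS : M.map (PowerSeries.C (R := R)) * S =
      Matrix.of fun i j => PowerSeries.mk fun d => (M ^ (d + 1)) i j := by
    ext i j : 1
    rw [Matrix.mul_apply]
    ext d
    simp only [hS, Matrix.map_apply, Matrix.of_apply, map_sum, PowerSeries.coeff_C_mul,
      PowerSeries.coeff_mk]
    rw [pow_succ', Matrix.mul_apply]
  have hAS : A.map φ * S = 1 := by
    rw [hAφ, sub_mul, one_mul, Matrix.smul_mul, hMS]
    ext i j : 1
    ext d
    simp only [hS, Matrix.sub_apply, Matrix.smul_apply, Matrix.of_apply, smul_eq_mul, map_sub]
    cases d with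
    | zero =>
      simp only [PowerSeries.coeff_zero_X_mul, PowerSeries.coeff_mk, pow_zero, sub_zero]
      by_cases hij : i = j
      · subst hij; simp
      · simp [Matrix.one_apply_ne hij]
    | succ d =>
      simp only [PowerSeries.coeff_succ_X_mul, PowerSeries.coeff_mk, sub_self]
      by_cases hij : i = j
      · subst hij; simp [PowerSeries.coeff_one]
      · simp [Matrix.one_apply_ne hij]
  have hadj : A.adjugate.map φ = (M.charpolyRev : PowerSeries R) • S := by
    have h2 : A.adjugate.map φ * A.map φ = (M.charpolyRev : PowerSeries R) • 1 := by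
      rw [← Matrix.map_mul, Matrix.adjugate_mul, hP]
      ext i j : 1
      simp only [Matrix.map_apply, Matrix.smul_apply, smul_eq_mul, hφ]
      by_cases hij : i = j
      · subst hij; simp
      · simp [Matrix.one_apply_ne hij]
    calc A.adjugate.map φ = A.adjugate.map φ * (A.map φ * S) := by rw [hAS, mul_one]
      _ = (A.adjugate.map φ * A.map φ) * S := by rw [mul_assoc]
      _ = (M.charpolyRev : PowerSeries R) • S := by rw [h2, Matrix.smul_mul, one_mul]
  have hSM : Matrix.trace (S * M.map (PowerSeries.C (R := R))) =
      PowerSeries.mk fun d => Matrix.trace (M ^ (d + 1)) := by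
    ext d
    simp only [Matrix.trace, Matrix.diag_apply, Matrix.mul_apply, hS, Matrix.map_apply,
      Matrix.of_apply, map_sum, PowerSeries.coeff_mul_C, PowerSeries.coeff_mk]
    refine Finset.sum_congr rfl fun i _ => ?_
    rw [pow_succ, Matrix.mul_apply]
  have hMφ : (M.map Polynomial.C).map φ = M.map (PowerSeries.C (R := R)) := by
    ext i j : 1
    simp only [Matrix.map_apply, hφ, Polynomial.coe_C]
  have h3 : d⁄dX R (M.charpolyRev : PowerSeries R) =
      - ((M.charpolyRev : PowerSeries R) * PowerSeries.mk fun d => Matrix.trace (M ^ (d + 1))) := by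
    rw [PowerSeries.derivative_coe, h1, ← hφ, map_neg]
    congr 1
    have h5 : (M.charpolyRev : PowerSeries R) * Matrix.trace (S * M.map (PowerSeries.C (R := R))) =
        Matrix.trace ((A.adjugate * M.map Polynomial.C).map φ) := by
      rw [Matrix.map_mul, hadj, hMφ, Matrix.smul_mul, Matrix.trace_smul, smul_eq_mul]
    rw [← hSM, h5]
    simp only [Matrix.trace, Matrix.diag_apply, map_sum, Matrix.map_apply]
  rw [h3]
  have h4 : trS M = X * PowerSeries.mk fun d => Matrix.trace (M ^ (d + 1)) := by
    ext d
    cases d with
    | zero => simp [trS]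
    | succ d => simp [trS, PowerSeries.coeff_succ_X_mul]
  rw [h4]
  ring

end Fermat.Agent.S27.AZ
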