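import Mathlib
import Fermat.Agent.S27.AZ.Defs
import Fermat.Agent.S27.AZ.PowDef
import Fermat.Agent.S27.AZ.Basic
import Fermat.Agent.S27.AZ.BasicCl

set_option autoImplicit false

noncomputable section

namespace Fermat.Agent.S27.AZ

namespace AZData

variable {S : Type*} (A : AZData S)

/-- `(A.pow m).Cl0` is definitionally `A.Cl0`; Frobenius is the `m`-th power. -/
theorem pow_phi0 (m : ℕ) (hm : 0 < m) :
    ((A.pow m hm).phi0 : AddMonoid.End A.Cl0) = A.phi0 ^ m := by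
  have key : ∀ c : A.Cl0, ((A.pow m hm).phi0 : AddMonoid.End A.Cl0) c = (A.phi0 ^ m) c := by
    rintro ⟨c, hc⟩
    induction c using QuotientAddGroup.induction_on with
    | H D =>
      apply Subtype.ext
      rw [coe_phi0_pow_mk]
      rfl
  exact AddMonoidHom.ext key

theorem pow_phi0_pow (m : ℕ) (hm : 0 < m) (k : ℕ) :
    (((A.pow m hm).phi0 ^ k : AddMonoid.End (A.pow m hm).Cl0) : AddMonoid.End A.Cl0) =
      A.phi0 ^ (m * k) := by
  rw [pow_mul, ← pow_phi0 A m hm]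
  rfl

theorem pow_h (m : ℕ) (hm : 0 < m) (k : ℕ) : (A.pow m hm).h k = A.h (m * k) := by
  unfold h
  rw [← pow_phi0_pow A m hm k]
  rfl

theorem pow_Z (m : ℕ) (hm : 0 < m) : (A.pow m hm).Z = wZ (A.φ ^ m) fun _ => 1 := rfl

/-- transfer of a surjectivity statement from `A.pow m` to `A`. -/
theorem surj_of_pow (m : ℕ) (hm : 0 < m)
    (h : ∀ y : (A.pow m hm).Cl0, ∃ x : (A.pow m hm).Cl0, (A.pow m hm).phi0 x - x = y)
    (y : A.Cl0) : ∃ x : A.Cl0, (A.phi0 ^ m) x - x = y := by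
  rw [← pow_phi0 A m hm]
  exact h y

/-- transfer of a finiteness statement from `A.pow m` to `A`. -/
theorem finite_of_pow (m : ℕ) (hm : 0 < m)
    (h : {c : (A.pow m hm).Cl0 | (A.pow m hm).phi0 c = c}.Finite) :
    {c : A.Cl0 | (A.phi0 ^ m) c = c}.Finite := by
  rw [← pow_phi0 A m hm]
  exact h

end AZData

end Fermat.Agent.S27.AZ
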