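import Mathlib
import Fermat.Agent.S27.AZ.Defs

set_option autoImplicit false

noncomputable section

namespace Fermat.Agent.S27.AZ

open PowerSeries

variable {R : Type*} [CommRing R]

namespace Uniq

theorem coeff_succ_X_mul_derivative (f : PowerSeries R) (n : ℕ) :
    coeff (n + 1) (X * d⁄dX R f) = coeff (n + 1) f * ((n : R) + 1) := by
  rw [coeff_succ_X_mul, coeff_derivative]

theorem coeff_zero_of_logDeriv (f s : PowerSeries R) (hf0 : constantCoeff f = 1)
    (hf : X * d⁄dX R f = f * s) : coeff 0 s = 0 := by
  have h := congrArg (coeff 0) hf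
  rw [coeff_zero_X_mul, coeff_zero_eq_constantCoeff, map_mul, hf0, one_mul] at h
  rw [coeff_zero_eq_constantCoeff]
  exact h.symm

theorem derivative_map {R' : Type*} [CommRing R'] (φ : R →+* R') (f : PowerSeries R) :
    d⁄dX R' (PowerSeries.map φ f) = PowerSeries.map φ (d⁄dX R f) := by
  ext n
  rw [coeff_derivative, coeff_map, coeff_map, coeff_derivative, map_mul, map_add, map_natCast,
    map_one]

theorem one_sub_mul_geomS (a : R) : (1 - C a * X) * geomS a = C a * X := by
  ext n
  rw [sub_mul, one_mul, mul_assoc, map_sub, coeff_C_mul, coeff_C_mul]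
  cases n with
  | zero => simp [geomS]
  | succ n =>
    rw [coeff_succ_X_mul]
    cases n with
    | zero => simp [geomS]
    | succ n =>
      simp only [geomS, coeff_mk, coeff_X]
      simp [pow_succ]
      ring

end Uniq

/-- **UNIQ**: a power series with constant term `1` is determined by its logarithmic derivative. -/
theorem eq_of_logDeriv_eq [IsDomain R] [CharZero R] (f g s : PowerSeries R)
    (hf0 : constantCoeff f = 1) (hg0 : constantCoeff g = 1)
    (hf : X * d⁄dX R f = f * s) (hg : X * d⁄dX R g = g * s) : f = g := by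
  have hs0 := Uniq.coeff_zero_of_logDeriv f s hf0 hf
  ext n
  induction n using Nat.strong_induction_on with
  | _ n ih =>
    cases n with
    | zero =>
      rw [coeff_zero_eq_constantCoeff, hf0, hg0]
    | succ n =>
      have h1 := congrArg (coeff (n + 1)) hf
      have h2 := congrArg (coeff (n + 1)) hg
      rw [Uniq.coeff_succ_X_mul_derivative, coeff_mul] at h1 h2
      have h3 : ∑ p ∈ Finset.HasAntidiagonal.antidiagonal (n + 1), coeff p.1 f * coeff p.2 s
          = ∑ p ∈ Finset.HasAntidiagonal.antidiagonal (n + 1), coeff p.1 g * coeff p.2 s := by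
        refine Finset.sum_congr rfl fun p hp => ?_
        have hp' := Finset.HasAntidiagonal.mem_antidiagonal.mp hp
        by_cases h0 : p.2 = 0
        · rw [h0, hs0, mul_zero, mul_zero]
        · rw [ih p.1 (by omega)]
      rw [h3, ← h2] at h1
      have hne : ((n : R) + 1) ≠ 0 := by exact_mod_cast Nat.succ_ne_zero n
      exact mul_right_cancel₀ hne h1

/-- the logarithmic derivative is unique. -/
theorem logDeriv_unique (f s t : PowerSeries R) (hf0 : constantCoeff f = 1)
    (hs : X * d⁄dX R f = f * s) (ht : X * d⁄dX R f = f * t) : s = t := by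
  have hu : IsUnit f := by
    rw [isUnit_iff_constantCoeff, hf0]
    exact isUnit_one
  exact hu.mul_left_cancel (hs.symm.trans ht)

theorem logDeriv_mul (f g s t : PowerSeries R) (hf : X * d⁄dX R f = f * s)
    (hg : X * d⁄dX R g = g * t) : X * d⁄dX R (f * g) = (f * g) * (s + t) := by
  rw [Derivation.leibniz, smul_eq_mul, smul_eq_mul]
  calc X * (f * d⁄dX R g + g * d⁄dX R f) = f * (X * d⁄dX R g) + g * (X * d⁄dX R f) := by ring
    _ = (f * g) * (s + t) := by rw [hf, hg]; ring

theorem logDeriv_one_sub (a : R) :
    (X : PowerSeries R) * d⁄dX R (1 - C a * X) = (1 - C a * X) * (- geomS a) := by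
  rw [mul_neg, Uniq.one_sub_mul_geomS, map_sub, Derivation.map_one_eq_zero, Derivation.leibniz,
    derivative_C, derivative_X]
  simp only [smul_eq_mul, mul_one, mul_zero, add_zero, zero_sub, mul_neg]
  ring

/-- logarithmic derivatives commute with a change of coefficients. -/
theorem logDeriv_map {R' : Type*} [CommRing R'] (φ : R →+* R') (f s : PowerSeries R)
    (hf : X * d⁄dX R f = f * s) :
    X * d⁄dX R' (PowerSeries.map φ f) = PowerSeries.map φ f * PowerSeries.map φ s := by
  rw [Uniq.derivative_map, ← map_mul, ← hf, map_mul, map_X]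

end Fermat.Agent.S27.AZ
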