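import Mathlib
import Fermat.Agent.S27.AZ.Defs
import Fermat.Agent.S27.AZ.PowDef
import Fermat.Agent.S27.AZ.Pow
import Fermat.Agent.S27.AZ.CountA
import Fermat.Agent.S27.AZ.CountB
import Fermat.Agent.S27.AZ.Lpoly
import Fermat.Agent.S27.AZ.LogDeriv
import Fermat.Agent.S27.AZ.MatrixLD
import Fermat.Agent.S27.AZ.Uniq
import Fermat.Agent.S27.AZ.Companion

set_option autoImplicit false

noncomputable section

namespace Fermat.Agent.S27.AZ

namespace Det

open PowerSeries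

/-- `det(1 - T M)` at `T = 1`. -/
theorem eval_one_charpolyRev {R : Type*} [CommRing R] {r : ℕ} (M : Matrix (Fin r) (Fin r) R) :
    M.charpolyRev.eval 1 = (1 - M).det := by
  rw [Matrix.charpolyRev, ← Polynomial.coe_evalRingHom, RingHom.map_det]
  congr 1
  ext i j
  by_cases h : i = j <;> simp [h]

theorem constantCoeff_coe_charpolyRev {R : Type*} [CommRing R] {r : ℕ}
    (M : Matrix (Fin r) (Fin r) R) :
    constantCoeff (M.charpolyRev : PowerSeries R) = 1 := by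
  rw [← PowerSeries.coeff_zero_eq_constantCoeff_apply, Polynomial.coeff_coe,
    Polynomial.coeff_zero_eq_eval_zero, Matrix.eval_charpolyRev]

end Det

namespace AZData

open PowerSeries

variable {S : Type*} (A : AZData S)

theorem finite_fix_cl0_pow (m : ℕ) (hm : 0 < m) : {c : A.Cl0 | (A.phi0 ^ m) c = c}.Finite :=
  A.finite_of_pow m hm (A.pow m hm).finite_fix_cl0

theorem h_pos (m : ℕ) (hm : 0 < m) : 0 < A.h m := by
  have h1 : Finite {c : A.Cl0 // (A.phi0 ^ m) c = c} := (A.finite_fix_cl0_pow m hm).to_subtype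
  have h2 : Nonempty {c : A.Cl0 // (A.phi0 ^ m) c = c} := ⟨⟨0, map_zero _⟩⟩
  exact Nat.card_pos

/-- **STEP 2**. -/
theorem exists_L (hg : 1 ≤ A.g) :
    ∃ L : Polynomial ℤ, L.natDegree ≤ 2 * A.g ∧
      (L : PowerSeries ℤ) = (1 - X) * (1 - C (A.q : ℤ) * X) * A.Z ∧
      L.coeff 0 = 1 ∧ L.coeff (2 * A.g) = (A.q : ℤ) ^ A.g ∧ L.eval 1 = A.h 1 := by
  have h := exists_Lpoly A.q A.g (A.h 1) A.one_lt_q hg (fun n => A.Z.coeff n) A.coeff_Z_zero
    (fun n hn => A.count_large n hn) (A.count_canonical hg)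
  have hmk : PowerSeries.mk (fun n => A.Z.coeff n) = A.Z := by
    ext n
    rw [PowerSeries.coeff_mk]
  rwa [hmk] at h

/-- the number of fixed points, as a power series. -/
theorem logDeriv_Z : X * d⁄dX ℤ A.Z = A.Z * wN A.φ fun _ => 1 :=
  logDeriv_wZ A.φ (fun m hm => A.finite_fix m hm) (fun _ => 1) (fun _ _ _ _ _ _ => (one_mul 1).symm)

theorem coeff_wN_pow (m : ℕ) (hm : 0 < m) (e : ℕ) :
    (wN (A.φ ^ m) fun _ => (1 : ℤ)).coeff e = (wN A.φ fun _ => (1 : ℤ)).coeff (m * e) := by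
  rw [wN, wN, PowerSeries.coeff_mk, PowerSeries.coeff_mk]
  have hfix : fixSet (A.φ ^ m) e = fixSet A.φ (m * e) := by
    ext s
    rw [fixSet, fixSet, Set.mem_ofPred_eq, Set.mem_ofPred_eq, pow_mul]
  by_cases he : e = 0
  · rw [if_pos he, if_pos (by rw [he, mul_zero])]
  · rw [if_neg he, if_neg (Nat.mul_ne_zero hm.ne' he), hfix]

theorem Det_logDeriv_L (L : Polynomial ℤ)
    (hL : (L : PowerSeries ℤ) = (1 - X) * (1 - C (A.q : ℤ) * X) * A.Z) :
    X * d⁄dX ℤ (L : PowerSeries ℤ) =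
      (L : PowerSeries ℤ) * ((- geomS 1 + - geomS (A.q : ℤ)) + wN A.φ fun _ => 1) := by
  have h1 := logDeriv_one_sub (1 : ℤ)
  have h2 := logDeriv_one_sub (A.q : ℤ)
  have h3 := A.logDeriv_Z
  have h := logDeriv_mul _ _ _ _ (logDeriv_mul _ _ _ _ h1 h2) h3
  rw [map_one, one_mul] at h
  rw [hL]
  exact h

/-- **STEP 5**. -/
theorem exists_matrix (hg : 1 ≤ A.g) :
    ∃ M : Matrix (Fin (2 * A.g)) (Fin (2 * A.g)) ℤ, M.det = (A.q : ℤ) ^ A.g ∧
      ∀ m, 0 < m → (A.h m : ℤ) = (1 - M ^ m).det := by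
  obtain ⟨L, hdeg, hL, hL0, hLtop, -⟩ := A.exists_L hg
  obtain ⟨M, hM, hdet⟩ := exists_matrix_charpolyRev L (2 * A.g) hdeg hL0
  refine ⟨M, ?_, ?_⟩
  · rw [hdet, hLtop, Even.neg_one_pow (even_two_mul _), one_mul]
  have hN : (- geomS 1 + - geomS (A.q : ℤ)) + (wN A.φ fun _ => (1 : ℤ)) = - trS M := by
    refine logDeriv_unique (L : PowerSeries ℤ) _ _ ?_ (A.Det_logDeriv_L L hL) ?_
    · rw [← hM]; exact Det.constantCoeff_coe_charpolyRev M
    · rw [← hM]; exact X_mul_derivative_charpolyRev M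
  intro m hm
  obtain ⟨Lm, -, hLm, hLm0, -, hLm1⟩ := (A.pow m hm).exists_L hg
  have hNm : (- geomS 1 + - geomS ((A.pow m hm).q : ℤ)) + (wN (A.pow m hm).φ fun _ => (1 : ℤ))
      = - trS (M ^ m) := by
    ext e
    have h1 := congrArg (PowerSeries.coeff (m * e)) hN
    rw [pow_φ, pow_q]
    simp only [map_add, map_neg, A.coeff_wN_pow m hm e] at h1 ⊢
    simp only [geomS, trS, PowerSeries.coeff_mk] at h1 ⊢
    by_cases he : e = 0
    · subst he
      simpa using h1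
    · rw [if_neg (Nat.mul_ne_zero hm.ne' he), if_neg (Nat.mul_ne_zero hm.ne' he),
        if_neg (Nat.mul_ne_zero hm.ne' he)] at h1
      rw [if_neg he, if_neg he, if_neg he, ← pow_mul, ← h1]
      push_cast
      rw [← pow_mul, one_pow, one_pow]
  have heq : (Lm : PowerSeries ℤ) = ((M ^ m).charpolyRev : PowerSeries ℤ) := by
    refine eq_of_logDeriv_eq _ _ (- trS (M ^ m)) ?_ (Det.constantCoeff_coe_charpolyRev _) ?_
      (X_mul_derivative_charpolyRev _)
    · rw [← PowerSeries.coeff_zero_eq_constantCoeff_apply, Polynomial.coeff_coe, hLm0]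
    · rw [← hNm]
      exact (A.pow m hm).Det_logDeriv_L Lm hLm
  have heq' : Lm = (M ^ m).charpolyRev := Polynomial.coe_injective ℤ heq
  rw [← Det.eval_one_charpolyRev, ← heq', hLm1, A.pow_h, mul_one]

end AZData

end Fermat.Agent.S27.AZ
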