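import Mathlib

/-!
# Block AZ, step 8: the abstract group theorem

`A` abelian group with an endomorphism `φ` such that every element is fixed by a power of `φ`,
the fixed groups `A_n` are finite, `φ^n - 1` is onto, and `v_ℓ |A_{nℓ}| = v_ℓ |A_n| + r` for all
multiples `n` of some `n₀`.  Then `#A[ℓ^k] = ℓ^(rk)`.
-/

set_option autoImplicit false

namespace Fermat.Agent.S27.AZ.GroupThm

variable {A : Type*} [AddCommGroup A]

/-- an endomorphism as an additive homomorphism. -/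
def hom (f : AddMonoid.End A) : A →+ A := f

@[simp] theorem hom_apply (f : AddMonoid.End A) (x : A) : hom f x = f x := rfl

theorem mem_ker_hom {f : AddMonoid.End A} {x : A} : x ∈ (hom f).ker ↔ f x = 0 := Iff.rfl

theorem end_sum_apply {ι : Type*} (s : Finset ι) (f : ι → AddMonoid.End A) (x : A) :
    (∑ i ∈ s, f i) x = ∑ i ∈ s, f i x :=
  map_sum ({ toFun := fun g => g x, map_zero' := rfl, map_add' := fun _ _ => rfl } :
    AddMonoid.End A →+ A) f s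

/-- fixed points of `φ ^ n`. -/
def Fx (φ : AddMonoid.End A) (n : ℕ) : AddSubgroup A := (hom (φ ^ n - 1)).ker

theorem mem_Fx' {φ : AddMonoid.End A} {n : ℕ} {x : A} : x ∈ Fx φ n ↔ (φ ^ n - 1) x = 0 := Iff.rfl

theorem mem_Fx {φ : AddMonoid.End A} {n : ℕ} {x : A} : x ∈ Fx φ n ↔ (φ ^ n) x = x := by
  rw [mem_Fx']
  show (φ ^ n) x - x = 0 ↔ _
  exact sub_eq_zero

/-- `n`-torsion. -/
def Tor (A : Type*) [AddCommGroup A] (n : ℕ) : AddSubgroup A :=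
  AddMonoidHom.ker (nsmulAddMonoidHom (α := A) n)

theorem mem_Tor {n : ℕ} {x : A} : x ∈ Tor A n ↔ n • x = 0 := by
  rw [Tor, AddMonoidHom.mem_ker]
  rfl

theorem card_eq_ker_mul_map (f : A →+ A) (K : AddSubgroup A) :
    Nat.card K = Nat.card (f.ker ⊓ K : AddSubgroup A) * Nat.card (K.map f) := by
  rw [← AddSubgroup.relIndex_ker, ← AddSubgroup.inf_relIndex_right,
    ← AddSubgroup.relIndex_bot_left, ← AddSubgroup.relIndex_bot_left (f.ker ⊓ K)]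
  exact (AddSubgroup.relIndex_mul_relIndex ⊥ (f.ker ⊓ K) K bot_le inf_le_right).symm

theorem Fx_le_mul (φ : AddMonoid.End A) (a b : ℕ) : Fx φ a ≤ Fx φ (a * b) := by
  intro x hx
  rw [mem_Fx] at hx ⊢
  rw [pow_mul]
  induction b with
  | zero => simp
  | succ b ih =>
    rw [pow_succ]
    show ((φ ^ a) ^ b) ((φ ^ a) x) = x
    rw [hx, ih]

theorem Fx_le_of_dvd (φ : AddMonoid.End A) {a b : ℕ} (h : a ∣ b) : Fx φ a ≤ Fx φ b := by
  obtain ⟨c, rfl⟩ := h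
  exact Fx_le_mul φ a c

/-- the `ℓ`-primary part of a finite abelian group `K` has `ℓ ^ v_ℓ(#K)` elements. -/
theorem card_primary (ℓ : ℕ) (hℓ : ℓ.Prime) (K P : AddSubgroup A) [Finite K]
    (hP : ∀ x, x ∈ P ↔ x ∈ K ∧ ∃ a : ℕ, ℓ ^ a • x = 0) :
    Nat.card P = ℓ ^ padicValNat ℓ (Nat.card K) := by
  have : Fact ℓ.Prime := ⟨hℓ⟩
  have hn : Nat.card K ≠ 0 := Nat.card_pos.ne'
  obtain ⟨v, t, ht, hvt⟩ := Nat.exists_eq_pow_mul_and_not_dvd hn ℓ hℓ.ne_one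
  have hPK : P ≤ K := fun x hx => ((hP x).1 hx).1
  have : Finite P := Finite.of_injective (AddSubgroup.inclusion hPK)
    (AddSubgroup.inclusion_injective hPK)
  set f : A →+ A := nsmulAddMonoidHom t with hf
  have hmap : K.map f = P := by
    ext x
    rw [AddSubgroup.mem_map, hP]
    constructor
    · rintro ⟨y, hy, rfl⟩
      refine ⟨K.nsmul_mem hy t, v, ?_⟩
      have h1 : Nat.card K • (⟨y, hy⟩ : K) = 0 := card_nsmul_eq_zero'
      have h2 : Nat.card K • y = 0 := congrArg Subtype.val h1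
      show ℓ ^ v • (t • y) = 0
      rw [← mul_smul, ← hvt, h2]
    · rintro ⟨hx, a, ha⟩
      have hcop : IsCoprime (t : ℤ) ((ℓ ^ a : ℕ) : ℤ) := by
        rw [Nat.isCoprime_iff_coprime]
        exact Nat.Coprime.pow_right a ((Nat.Prime.coprime_iff_not_dvd hℓ).2 ht).symm
      obtain ⟨u, w, huw⟩ := hcop
      refine ⟨u • x, K.zsmul_mem hx u, ?_⟩
      show t • (u • x) = x
      have h3 : (w * ((ℓ ^ a : ℕ) : ℤ)) • x = 0 := by
        rw [mul_smul, natCast_zsmul, ha, smul_zero]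
      calc t • (u • x) = (u * (t : ℤ)) • x := by
            rw [mul_smul, natCast_zsmul, smul_comm]
        _ = (u * (t : ℤ) + w * ((ℓ ^ a : ℕ) : ℤ)) • x := by rw [add_smul, h3, add_zero]
        _ = x := by rw [huw, one_smul]
  have hcard := card_eq_ker_mul_map f K
  rw [hmap] at hcard
  have hQK : f.ker ⊓ K ≤ K := inf_le_right
  have : Finite (f.ker ⊓ K : AddSubgroup A) := Finite.of_injective (AddSubgroup.inclusion hQK)
    (AddSubgroup.inclusion_injective hQK)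
  have hQ : ¬ ℓ ∣ Nat.card (f.ker ⊓ K : AddSubgroup A) := by
    intro hd
    obtain ⟨y, hy⟩ := exists_prime_addOrderOf_dvd_card' (G := (f.ker ⊓ K : AddSubgroup A)) ℓ hd
    have h1 : t • (y : A) = 0 := y.2.1
    have h2 : t • y = 0 := Subtype.ext (by simpa using h1)
    exact ht (hy ▸ addOrderOf_dvd_of_nsmul_eq_zero h2)
  have hPpow : Nat.card P = ℓ ^ (Nat.card P).primeFactorsList.length := by
    refine Nat.eq_prime_pow_of_unique_prime_dvd Nat.card_pos.ne' ?_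
    intro d hd hdd
    have : Fact d.Prime := ⟨hd⟩
    obtain ⟨y, hy⟩ := exists_prime_addOrderOf_dvd_card' (G := P) d hdd
    obtain ⟨-, a, ha⟩ := (hP y).1 y.2
    have h2 : ℓ ^ a • y = 0 := Subtype.ext (by simpa using ha)
    have h3 : d ∣ ℓ ^ a := hy ▸ addOrderOf_dvd_of_nsmul_eq_zero h2
    exact (Nat.prime_dvd_prime_iff_eq hd hℓ).1 (hd.dvd_of_dvd_pow h3)
  have hQ0 : Nat.card (f.ker ⊓ K : AddSubgroup A) ≠ 0 := Nat.card_pos.ne'
  rw [hcard, padicValNat.mul hQ0 Nat.card_pos.ne', padicValNat.eq_zero_of_not_dvd hQ, zero_add]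
  conv_rhs => rw [hPpow, padicValNat.prime_pow]
  exact hPpow

/-- the norm operator `1 + ψ + ... + ψ^(t-1)`, `ψ = φ^a`. -/
def Nm (φ : AddMonoid.End A) (a t : ℕ) : AddMonoid.End A := ∑ i ∈ Finset.range t, (φ ^ a) ^ i

theorem sub_one_mul_Nm (φ : AddMonoid.End A) (a t : ℕ) :
    (φ ^ a - 1) * Nm φ a t = φ ^ (a * t) - 1 := by
  rw [Nm, mul_geom_sum, pow_mul]

theorem Nm_mul_sub_one (φ : AddMonoid.End A) (a t : ℕ) :
    Nm φ a t * (φ ^ a - 1) = φ ^ (a * t) - 1 := by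
  rw [Nm, geom_sum_mul, pow_mul]

theorem Nm_apply_of_mem {φ : AddMonoid.End A} {a : ℕ} (t : ℕ) {x : A} (hx : x ∈ Fx φ a) :
    Nm φ a t x = t • x := by
  rw [mem_Fx] at hx
  have h : ∀ i : ℕ, ((φ ^ a) ^ i) x = x := by
    intro i
    induction i with
    | zero => simp
    | succ i ih =>
      rw [pow_succ]
      show ((φ ^ a) ^ i) ((φ ^ a) x) = x
      rw [hx, ih]
  rw [Nm, end_sum_apply, Finset.sum_congr rfl (fun i _ => h i)]
  simp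

theorem ker_Nm_le (φ : AddMonoid.End A) (a t : ℕ) :
    (hom (Nm φ a t)).ker ≤ Fx φ (a * t) := by
  intro x hx
  rw [mem_ker_hom] at hx
  rw [mem_Fx', ← sub_one_mul_Nm]
  show (φ ^ a - 1) (Nm φ a t x) = 0
  rw [hx, map_zero]

theorem map_Nm (φ : AddMonoid.End A) (a t : ℕ) (hsurj : ∀ y : A, ∃ x : A, (φ ^ (a * t)) x - x = y) :
    (Fx φ (a * t)).map (hom (Nm φ a t)) = Fx φ a := by
  ext y
  rw [AddSubgroup.mem_map]
  constructor
  · rintro ⟨x, hx, rfl⟩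
    rw [mem_Fx'] at hx ⊢
    show ((φ ^ a - 1) * Nm φ a t) x = 0
    rw [sub_one_mul_Nm]
    exact hx
  · intro hy
    obtain ⟨z, hz⟩ := hsurj y
    have hz' : (φ ^ (a * t) - 1) z = y := hz
    refine ⟨(φ ^ a - 1) z, ?_, ?_⟩
    · rw [mem_Fx', ← sub_one_mul_Nm]
      show (φ ^ a - 1) ((Nm φ a t * (φ ^ a - 1)) z) = 0
      rw [Nm_mul_sub_one, hz']
      exact hy
    · show (Nm φ a t * (φ ^ a - 1)) z = y
      rw [Nm_mul_sub_one, hz']

theorem card_Fx_mul (φ : AddMonoid.End A) (a t : ℕ)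
    (hsurj : ∀ y : A, ∃ x : A, (φ ^ (a * t)) x - x = y) :
    Nat.card (Fx φ (a * t)) = Nat.card (hom (Nm φ a t)).ker * Nat.card (Fx φ a) := by
  rw [card_eq_ker_mul_map (hom (Nm φ a t)) (Fx φ (a * t)), map_Nm φ a t hsurj,
    inf_eq_left.2 (ker_Nm_le φ a t)]

open Polynomial in
theorem exists_frob_poly (ℓ : ℕ) (hℓ : ℓ.Prime) (j : ℕ) :
    ∃ Q : Polynomial ℤ, (X - 1 : Polynomial ℤ) ^ (ℓ ^ j) = X ^ (ℓ ^ j) - 1 + C (ℓ : ℤ) * Q := by
  have : Fact ℓ.Prime := ⟨hℓ⟩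
  have hdvd : C (ℓ : ℤ) ∣ (X - 1 : Polynomial ℤ) ^ (ℓ ^ j) - (X ^ (ℓ ^ j) - 1) := by
    rw [C_dvd_iff_dvd_coeff]
    intro i
    rw [← ZMod.intCast_zmod_eq_zero_iff_dvd]
    have h0 : ((X - 1 : Polynomial ℤ) ^ (ℓ ^ j) - (X ^ (ℓ ^ j) - 1)).map
        (Int.castRingHom (ZMod ℓ)) = 0 := by
      simp [sub_pow_char_pow]
    have h1 := congrArg (fun P => P.coeff i) h0
    rw [coeff_map, coeff_zero] at h1
    exact h1
  obtain ⟨Q, hQ⟩ := hdvd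
  exact ⟨Q, by rw [← hQ]; ring⟩

theorem sub_one_pow_apply (ψ : AddMonoid.End A) (ℓ : ℕ) (hℓ : ℓ.Prime) (j : ℕ) {x : A}
    (hx : ℓ • x = 0) : ((ψ - 1) ^ (ℓ ^ j)) x = (ψ ^ (ℓ ^ j) - 1) x := by
  obtain ⟨Q, hQ⟩ := exists_frob_poly ℓ hℓ j
  have h := congrArg (Polynomial.aeval ψ) hQ
  simp only [map_pow, map_sub, map_add, map_mul, Polynomial.aeval_X, map_one,
    Polynomial.aeval_C] at h
  rw [h]
  show (ψ ^ (ℓ ^ j) - 1) x + (algebraMap ℤ (AddMonoid.End A) (ℓ : ℤ) * Polynomial.aeval ψ Q) x = _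
  have h2 : (algebraMap ℤ (AddMonoid.End A) (ℓ : ℤ) * Polynomial.aeval ψ Q) x = 0 := by
    have h3 : algebraMap ℤ (AddMonoid.End A) (ℓ : ℤ) * Polynomial.aeval ψ Q
        = Polynomial.aeval ψ Q * algebraMap ℤ (AddMonoid.End A) (ℓ : ℤ) :=
      Algebra.commutes _ _
    rw [h3]
    show Polynomial.aeval ψ Q (algebraMap ℤ (AddMonoid.End A) (ℓ : ℤ) x) = 0
    have h4 : algebraMap ℤ (AddMonoid.End A) (ℓ : ℤ) x = ℓ • x := by
      simp
    rw [h4, hx, map_zero]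
  rw [h2, add_zero]

/-- `ker θ^i` on the `ℓ`-torsion. -/
def U (θ : AddMonoid.End A) (ℓ i : ℕ) : AddSubgroup A := (hom (θ ^ i)).ker ⊓ Tor A ℓ

theorem mem_U {θ : AddMonoid.End A} {ℓ i : ℕ} {x : A} :
    x ∈ U θ ℓ i ↔ (θ ^ i) x = 0 ∧ ℓ • x = 0 := by
  rw [U, AddSubgroup.mem_inf, mem_ker_hom, mem_Tor]

theorem U_le_succ (θ : AddMonoid.End A) (ℓ i : ℕ) : U θ ℓ i ≤ U θ ℓ (i + 1) := by
  intro x hx
  rw [mem_U] at hx ⊢
  refine ⟨?_, hx.2⟩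
  rw [pow_succ']
  show θ ((θ ^ i) x) = 0
  rw [hx.1, map_zero]

theorem U_mono (θ : AddMonoid.End A) (ℓ : ℕ) : Monotone (U θ ℓ) :=
  monotone_nat_of_le_succ (U_le_succ θ ℓ)

theorem U_stab (θ : AddMonoid.End A) (ℓ i : ℕ) (h : U θ ℓ i = U θ ℓ (i + 1)) :
    ∀ i', i ≤ i' → U θ ℓ i' = U θ ℓ i := by
  intro i' hi'
  induction i', hi' using Nat.le_induction with
  | base => rfl
  | succ m hm ih =>
    apply le_antisymm _ (U_mono θ ℓ (hm.trans (Nat.le_succ m)))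
    intro x hx
    rw [mem_U] at hx
    have h1 : θ x ∈ U θ ℓ m := by
      rw [mem_U]
      refine ⟨?_, by rw [← map_nsmul, hx.2, map_zero]⟩
      have := hx.1
      rw [pow_succ] at this
      exact this
    rw [ih, mem_U] at h1
    have h2 : x ∈ U θ ℓ (i + 1) := by
      rw [mem_U]
      refine ⟨?_, hx.2⟩
      rw [pow_succ]
      exact h1.1
    rw [h]
    exact h2

theorem pow_dvd_card_U (θ : AddMonoid.End A) (ℓ : ℕ) (hℓ : ℓ.Prime) (I : ℕ)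
    (hfin : Finite (U θ ℓ I)) (hne : ∀ i < I, U θ ℓ i ≠ U θ ℓ (i + 1)) :
    ℓ ^ I ∣ Nat.card (U θ ℓ I) := by
  induction I with
  | zero => simp
  | succ I ih =>
    have hle : U θ ℓ I ≤ U θ ℓ (I + 1) := U_le_succ θ ℓ I
    have hfin' : Finite (U θ ℓ I) := Finite.of_injective (AddSubgroup.inclusion hle)
      (AddSubgroup.inclusion_injective hle)
    have ih' := ih hfin' (fun i hi => hne i (hi.trans (Nat.lt_succ_self I)))
    have hcard := card_eq_ker_mul_map (hom (θ ^ I)) (U θ ℓ (I + 1))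
    have hker : (hom (θ ^ I)).ker ⊓ U θ ℓ (I + 1) = U θ ℓ I := by
      apply le_antisymm
      · intro x hx
        rw [AddSubgroup.mem_inf, mem_ker_hom, mem_U] at hx
        rw [mem_U]
        exact ⟨hx.1, hx.2.2⟩
      · intro x hx
        rw [AddSubgroup.mem_inf]
        exact ⟨((mem_U.1 hx).1 : (θ ^ I) x = 0), hle hx⟩
    rw [hker] at hcard
    -- the image is a nontrivial group killed by `ℓ`
    have hex : ∃ x ∈ U θ ℓ (I + 1), x ∉ U θ ℓ I := by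
      by_contra hcon
      refine hne I (Nat.lt_succ_self I) (le_antisymm hle fun x hx => ?_)
      by_contra hx'
      exact hcon ⟨x, hx, hx'⟩
    obtain ⟨x, hx1, hx0⟩ := hex
    have hy : (θ ^ I) x ∈ (U θ ℓ (I + 1)).map (hom (θ ^ I)) := ⟨x, hx1, rfl⟩
    have hy0 : (θ ^ I) x ≠ 0 := fun h0 => hx0 (mem_U.2 ⟨h0, (mem_U.1 hx1).2⟩)
    have hyℓ : ℓ • (θ ^ I) x = 0 := by rw [← map_nsmul, (mem_U.1 hx1).2, map_zero]
    have hord : addOrderOf (⟨(θ ^ I) x, hy⟩ : (U θ ℓ (I + 1)).map (hom (θ ^ I))) = ℓ := by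
      have : Fact ℓ.Prime := ⟨hℓ⟩
      apply addOrderOf_eq_prime
      · exact Subtype.ext hyℓ
      · intro h0
        exact hy0 (congrArg Subtype.val h0)
    have hdvd : ℓ ∣ Nat.card ((U θ ℓ (I + 1)).map (hom (θ ^ I))) := by
      have h5 := addOrderOf_dvd_natCard
        (⟨(θ ^ I) x, hy⟩ : (U θ ℓ (I + 1)).map (hom (θ ^ I)))
      rwa [hord] at h5
    rw [hcard, pow_succ]
    exact mul_dvd_mul ih' hdvd

theorem U_pow_eq (φ : AddMonoid.End A) (n ℓ : ℕ) (hℓ : ℓ.Prime) (j : ℕ) :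
    U (φ ^ n - 1) ℓ (ℓ ^ j) = Fx φ (n * ℓ ^ j) ⊓ Tor A ℓ := by
  ext x
  rw [mem_U, AddSubgroup.mem_inf, mem_Fx', mem_Tor, pow_mul]
  constructor
  · rintro ⟨h1, h2⟩
    exact ⟨by rw [← sub_one_pow_apply _ ℓ hℓ j h2]; exact h1, h2⟩
  · rintro ⟨h1, h2⟩
    exact ⟨by rw [sub_one_pow_apply _ ℓ hℓ j h2]; exact h1, h2⟩

theorem exists_lt_two_pow (c r : ℕ) : ∃ j : ℕ, c + r * j < 2 ^ j := by
  refine ⟨3 * (c + r + 1), ?_⟩
  set s := c + r + 1 with hs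
  have h1 : s + 1 ≤ 2 ^ s := Nat.lt_two_pow_self
  have h2 : (s + 1) ^ 3 ≤ (2 ^ s) ^ 3 := Nat.pow_le_pow_left h1 3
  have h3 : (2 : ℕ) ^ (3 * s) = (2 ^ s) ^ 3 := by rw [← pow_mul, mul_comm]
  rw [h3]
  refine lt_of_lt_of_le ?_ h2
  have hc : c ≤ s := by omega
  have hr : r ≤ s := by omega
  nlinarith [Nat.mul_le_mul hr (le_refl s), Nat.zero_le (s ^ 3)]

section main

variable (φ : AddMonoid.End A) (ℓ : ℕ) (hℓ : ℓ.Prime) (r : ℕ)
  (hb : ∀ n : ℕ, 0 < n → Finite (Fx φ n))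
  (hc : ∀ n : ℕ, 0 < n → ∀ y : A, ∃ x : A, (φ ^ n) x - x = y)
  (n : ℕ) (hn : 0 < n)
  (hd : ∀ j : ℕ, padicValNat ℓ (Nat.card (Fx φ (n * ℓ ^ (j + 1)))) =
    padicValNat ℓ (Nat.card (Fx φ (n * ℓ ^ j))) + r)

include hd in
theorem val_card_Fx (j : ℕ) : padicValNat ℓ (Nat.card (Fx φ (n * ℓ ^ j))) =
    padicValNat ℓ (Nat.card (Fx φ n)) + r * j := by
  induction j with
  | zero => simp
  | succ j ih => rw [hd j, ih]; ring

include hℓ hn in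
theorem pos_mul_pow (j : ℕ) : 0 < n * ℓ ^ j := Nat.mul_pos hn (pow_pos hℓ.pos j)

theorem Fx_pow_mono {j j' : ℕ} (h : j ≤ j') : Fx φ (n * ℓ ^ j) ≤ Fx φ (n * ℓ ^ j') :=
  Fx_le_of_dvd φ (Nat.mul_dvd_mul_left n (pow_dvd_pow ℓ h))

include hℓ hb hn hd in
theorem stab_one : ∃ J : ℕ, ∀ j' : ℕ, Fx φ (n * ℓ ^ j') ⊓ Tor A ℓ ≤ Fx φ (n * ℓ ^ J) := by
  have : Fact ℓ.Prime := ⟨hℓ⟩
  obtain ⟨j, hj⟩ := exists_lt_two_pow (padicValNat ℓ (Nat.card (Fx φ n))) r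
  have hj' : padicValNat ℓ (Nat.card (Fx φ n)) + r * j < ℓ ^ j :=
    hj.trans_le (Nat.pow_le_pow_left hℓ.two_le j)
  refine ⟨j, fun j' => ?_⟩
  have hfinF : Finite (Fx φ (n * ℓ ^ j)) := hb _ (pos_mul_pow ℓ hℓ n hn j)
  have hUle : U (φ ^ n - 1) ℓ (ℓ ^ j) ≤ Fx φ (n * ℓ ^ j) := by
    rw [U_pow_eq φ n ℓ hℓ j]; exact inf_le_left
  have hfinU : Finite (U (φ ^ n - 1) ℓ (ℓ ^ j)) := Finite.of_injective (AddSubgroup.inclusion hUle)
    (AddSubgroup.inclusion_injective hUle)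
  have hex : ∃ i < ℓ ^ j, U (φ ^ n - 1) ℓ i = U (φ ^ n - 1) ℓ (i + 1) := by
    by_contra hcon
    have hne : ∀ i < ℓ ^ j, U (φ ^ n - 1) ℓ i ≠ U (φ ^ n - 1) ℓ (i + 1) :=
      fun i hi h => hcon ⟨i, hi, h⟩
    have h1 := pow_dvd_card_U (φ ^ n - 1) ℓ hℓ (ℓ ^ j) hfinU hne
    have h2 : ℓ ^ (ℓ ^ j) ∣ Nat.card (Fx φ (n * ℓ ^ j)) :=
      h1.trans (AddSubgroup.card_dvd_of_le hUle)
    rw [padicValNat_dvd_iff_le Nat.card_pos.ne', val_card_Fx φ ℓ r n hd j] at h2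
    omega
  obtain ⟨i, hi, hUi⟩ := hex
  have hstab := U_stab _ ℓ i hUi
  rw [← U_pow_eq φ n ℓ hℓ j']
  refine le_trans ?_ hUle
  calc U (φ ^ n - 1) ℓ (ℓ ^ j') ≤ U (φ ^ n - 1) ℓ (max (ℓ ^ j') i) :=
        U_mono _ ℓ (le_max_left _ _)
    _ = U (φ ^ n - 1) ℓ i := hstab _ (le_max_right _ _)
    _ ≤ U (φ ^ n - 1) ℓ (ℓ ^ j) := U_mono _ ℓ hi.le

theorem pow_comm_apply (a b : ℕ) (x : A) : (φ ^ a) ((φ ^ b) x) = (φ ^ b) ((φ ^ a) x) := by
  show (φ ^ a * φ ^ b) x = (φ ^ b * φ ^ a) x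
  rw [← pow_add, ← pow_add, add_comm]

include hℓ hb hn hd in
theorem stab (e : ℕ) : ∃ J : ℕ, ∀ j' : ℕ, Fx φ (n * ℓ ^ j') ⊓ Tor A (ℓ ^ e) ≤ Fx φ (n * ℓ ^ J) := by
  induction e with
  | zero =>
    refine ⟨0, fun j' x hx => ?_⟩
    have h0 : x = 0 := by simpa [mem_Tor] using hx.2
    rw [h0]; exact zero_mem _
  | succ e ih =>
    obtain ⟨Je, hJe⟩ := ih
    obtain ⟨J1, hJ1⟩ := stab_one φ ℓ hℓ r hb n hn hd
    refine ⟨max Je J1 + 1, fun j' x hx => ?_⟩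
    have hxF : x ∈ Fx φ (n * ℓ ^ j') := hx.1
    have hxT : ℓ ^ (e + 1) • x = 0 := mem_Tor.1 hx.2
    set a := n * ℓ ^ (max Je J1) with ha
    have hxF' := mem_Fx.1 hxF
    -- `ℓ x` is fixed by `φ^a`
    have h1 : ℓ • x ∈ Fx φ a := by
      apply Fx_pow_mono φ ℓ n (le_max_left Je J1)
      apply hJe j'
      refine ⟨AddSubgroup.nsmul_mem _ hxF ℓ, mem_Tor.2 ?_⟩
      rw [← mul_smul, ← pow_succ]
      exact hxT
    set t := (φ ^ a) x - x with ht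
    have htℓ : ℓ • t = 0 := by
      rw [ht, smul_sub, ← map_nsmul, mem_Fx.1 h1, sub_self]
    have htF : t ∈ Fx φ (n * ℓ ^ j') := by
      rw [mem_Fx, ht, map_sub, pow_comm_apply, hxF']
    have hta : t ∈ Fx φ a := by
      apply Fx_pow_mono φ ℓ n (le_max_right Je J1)
      exact hJ1 j' ⟨htF, mem_Tor.2 htℓ⟩
    have hta' := mem_Fx.1 hta
    have hiter : ∀ i : ℕ, ((φ ^ a) ^ i) x = x + i • t := by
      intro i
      induction i with
      | zero => simp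
      | succ i ih =>
        rw [pow_succ']
        show (φ ^ a) (((φ ^ a) ^ i) x) = _
        rw [ih, map_add, map_nsmul, hta', succ_nsmul, ht]
        abel
    rw [mem_Fx, pow_succ, ← mul_assoc, ← ha, pow_mul, hiter, htℓ, add_zero]

include hℓ hb hc hn hd in
/-- the `ℓ^k`-torsion of `⋃_j A_{n ℓ^j}` has `ℓ^(rk)` elements. -/
theorem exists_P (k : ℕ) : ∃ (P : AddSubgroup A) (J : ℕ), P = Fx φ (n * ℓ ^ J) ⊓ Tor A (ℓ ^ k) ∧
    (∀ j' : ℕ, Fx φ (n * ℓ ^ j') ⊓ Tor A (ℓ ^ k) ≤ P) ∧ Nat.card P = ℓ ^ (r * k) := by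
  have : Fact ℓ.Prime := ⟨hℓ⟩
  obtain ⟨J, hJ⟩ := stab φ ℓ hℓ r hb n hn hd (k + 1)
  have hTor : Tor A (ℓ ^ k) ≤ Tor A (ℓ ^ (k + 1)) := by
    intro x hx
    rw [mem_Tor] at hx ⊢
    rw [pow_succ', mul_smul, hx, smul_zero]
  refine ⟨Fx φ (n * ℓ ^ (J + k)) ⊓ Tor A (ℓ ^ k), J + k, rfl, ?_, ?_⟩
  · intro j' x hx
    exact ⟨Fx_pow_mono φ ℓ n (Nat.le_add_right J k) (hJ j' ⟨hx.1, hTor hx.2⟩), hx.2⟩
  set a := n * ℓ ^ J with ha
  have hak : n * ℓ ^ (J + k) = a * ℓ ^ k := by rw [ha, pow_add, mul_assoc]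
  have hapos : 0 < a * ℓ ^ k := by rw [← hak]; exact pos_mul_pow ℓ hℓ n hn _
  have hfin1 : Finite (Fx φ (a * ℓ ^ k)) := hb _ hapos
  have hfin0 : Finite (Fx φ a) := hb _ (pos_mul_pow ℓ hℓ n hn J)
  have hKle := ker_Nm_le φ a (ℓ ^ k)
  have hfinK : Finite (hom (Nm φ a (ℓ ^ k))).ker := Finite.of_injective
    (AddSubgroup.inclusion hKle) (AddSubgroup.inclusion_injective hKle)
  have hcard := card_Fx_mul φ a (ℓ ^ k) (hc _ hapos)
  have hval : padicValNat ℓ (Nat.card (hom (Nm φ a (ℓ ^ k))).ker) = r * k := by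
    have h1 := val_card_Fx φ ℓ r n hd (J + k)
    have h2 := val_card_Fx φ ℓ r n hd J
    rw [← ha] at h2
    rw [hak, hcard, padicValNat.mul Nat.card_pos.ne' Nat.card_pos.ne', h2] at h1
    have h3 : r * (J + k) = r * J + r * k := by ring
    omega
  rw [← hval, hak]
  apply card_primary ℓ hℓ
  intro x
  constructor
  · rintro ⟨hxF, hxT⟩
    have hxa : x ∈ Fx φ a := hJ (J + k) ⟨by rw [hak]; exact hxF, hTor hxT⟩
    refine ⟨?_, k, mem_Tor.1 hxT⟩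
    rw [mem_ker_hom, Nm_apply_of_mem _ hxa]
    exact mem_Tor.1 hxT
  · rintro ⟨hxK, e, he⟩
    refine ⟨hKle hxK, ?_⟩
    -- induction on the exponent
    have key : ∀ (e : ℕ) (x : A), x ∈ (hom (Nm φ a (ℓ ^ k))).ker → ℓ ^ e • x = 0 →
        ℓ ^ k • x = 0 := by
      intro e
      induction e with
      | zero => intro x _ hx; simp at hx; simp [hx]
      | succ e ih =>
        intro x hxK hx
        have h1 : ℓ ^ k • (ℓ • x) = 0 := by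
          apply ih (ℓ • x) (AddSubgroup.nsmul_mem _ hxK ℓ)
          rw [← mul_smul, ← pow_succ]; exact hx
        have h2 : x ∈ Tor A (ℓ ^ (k + 1)) := by
          rw [mem_Tor, pow_succ, mul_smul]; exact h1
        have hxa : x ∈ Fx φ a := hJ (J + k) ⟨by rw [hak]; exact hKle hxK, h2⟩
        have h3 := Nm_apply_of_mem (ℓ ^ k) hxa
        rw [mem_ker_hom] at hxK
        rw [← h3, hxK]
    exact mem_Tor.2 (key e x hxK he)

end main

/-- STEP 8 of block AZ. -/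
theorem card_torsion_of_frobenius' (φ : AddMonoid.End A) (ℓ : ℕ)
    (hℓ : ℓ.Prime) (r : ℕ)
    (ha : ∀ x : A, ∃ n : ℕ, 0 < n ∧ (φ ^ n) x = x)
    (hb : ∀ n : ℕ, 0 < n → Finite (Fx φ n))
    (hc : ∀ n : ℕ, 0 < n → ∀ y : A, ∃ x : A, (φ ^ n) x - x = y)
    (hd : ∃ n₀ : ℕ, 0 < n₀ ∧ ∀ n : ℕ, 0 < n → n₀ ∣ n →
      padicValNat ℓ (Nat.card (Fx φ (n * ℓ))) = padicValNat ℓ (Nat.card (Fx φ n)) + r)
    (k : ℕ) : Nat.card (Tor A (ℓ ^ k)) = ℓ ^ (r * k) := by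
  obtain ⟨n₀, hn₀, hd⟩ := hd
  have hd' : ∀ n : ℕ, 0 < n → n₀ ∣ n → ∀ j : ℕ,
      padicValNat ℓ (Nat.card (Fx φ (n * ℓ ^ (j + 1)))) =
        padicValNat ℓ (Nat.card (Fx φ (n * ℓ ^ j))) + r := by
    intro n hn hdvd j
    rw [pow_succ, ← mul_assoc]
    exact hd _ (pos_mul_pow ℓ hℓ n hn j) (hdvd.mul_right _)
  obtain ⟨P₀, J₀, hP₀, hle₀, hcard₀⟩ :=
    exists_P φ ℓ hℓ r hb hc n₀ hn₀ (hd' n₀ hn₀ dvd_rfl) k
  have hfin : ∀ (n J : ℕ), 0 < n → Finite (Fx φ (n * ℓ ^ J) ⊓ Tor A (ℓ ^ k) : AddSubgroup A) := by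
    intro n J hn
    have := hb _ (pos_mul_pow ℓ hℓ n hn J)
    exact Finite.of_injective (AddSubgroup.inclusion (inf_le_left))
      (AddSubgroup.inclusion_injective inf_le_left)
  have hEq : Tor A (ℓ ^ k) = P₀ := by
    apply le_antisymm
    · intro x hx
      obtain ⟨n', hn', hxn'⟩ := ha x
      have hnpos : 0 < n₀ * n' := Nat.mul_pos hn₀ hn'
      obtain ⟨P, J, hP, hle, hcard⟩ :=
        exists_P φ ℓ hℓ r hb hc (n₀ * n') hnpos (hd' _ hnpos (dvd_mul_right _ _)) k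
      have hxP : x ∈ P := by
        apply hle 0
        refine ⟨?_, hx⟩
        rw [pow_zero, mul_one]
        exact Fx_le_of_dvd φ (dvd_mul_left _ _) (mem_Fx.2 hxn')
      have hP₀P : P₀ ≤ P := by
        rw [hP₀]
        intro y hy
        apply hle J₀
        refine ⟨Fx_le_of_dvd φ ?_ hy.1, hy.2⟩
        exact Nat.mul_dvd_mul_right (dvd_mul_right _ _) _
      have : Finite P := by rw [hP]; exact hfin _ _ hnpos
      have hPP : P₀ = P := AddSubgroup.eq_of_le_of_card_ge hP₀P (by rw [hcard, hcard₀])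
      rw [hPP]; exact hxP
    · rw [hP₀]; exact inf_le_right
  rw [hEq, hcard₀]

end Fermat.Agent.S27.AZ.GroupThm

namespace Fermat.Agent.S27.AZ

open GroupThm in
/-- STEP 8 of block AZ. -/
theorem card_torsion_of_frobenius {A : Type*} [AddCommGroup A] (φ : AddMonoid.End A) (ℓ : ℕ)
    (hℓ : ℓ.Prime) (r : ℕ)
    (ha : ∀ x : A, ∃ n : ℕ, 0 < n ∧ (φ ^ n) x = x)
    (hb : ∀ n : ℕ, 0 < n → {x : A | (φ ^ n) x = x}.Finite)
    (hc : ∀ n : ℕ, 0 < n → ∀ y : A, ∃ x : A, (φ ^ n) x - x = y)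
    (hd : ∃ n₀ : ℕ, 0 < n₀ ∧ ∀ n : ℕ, 0 < n → n₀ ∣ n →
      padicValNat ℓ (Nat.card {x : A // (φ ^ (n * ℓ)) x = x}) =
        padicValNat ℓ (Nat.card {x : A // (φ ^ n) x = x}) + r)
    (k : ℕ) : Nat.card {x : A // (ℓ ^ k) • x = 0} = ℓ ^ (r * k) := by
  have e1 : ∀ n : ℕ, Nat.card {x : A // (φ ^ n) x = x} = Nat.card (Fx φ n) := fun n =>
    Nat.card_congr (Equiv.subtypeEquivRight fun x => (mem_Fx (φ := φ) (n := n) (x := x)).symm)
  have e2 : Nat.card {x : A // (ℓ ^ k) • x = 0} = Nat.card (Tor A (ℓ ^ k)) :=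
    Nat.card_congr (Equiv.subtypeEquivRight fun x => (mem_Tor (n := ℓ ^ k) (x := x)).symm)
  rw [e2]
  refine card_torsion_of_frobenius' φ ℓ hℓ r ha ?_ hc ?_ k
  · intro n hn
    have h : Finite {x : A // (φ ^ n) x = x} := (hb n hn).to_subtype
    exact Finite.of_equiv _
      (Equiv.subtypeEquivRight fun x => (mem_Fx (φ := φ) (n := n) (x := x)).symm)
  · obtain ⟨n₀, hn₀, h⟩ := hd
    refine ⟨n₀, hn₀, fun n hn hdvd => ?_⟩
    rw [← e1, ← e1]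
    exact h n hn hdvd

end Fermat.Agent.S27.AZ
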