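import Mathlib

set_option autoImplicit false

noncomputable section

namespace Fermat.Agent.S27.AZ

namespace LangAbs

variable {G : Type*} [AddCommGroup G] (φ : AddMonoid.End G)

theorem pow_comm_apply (n i : ℕ) (x : G) : (φ ^ n) ((φ ^ i) x) = (φ ^ i) ((φ ^ n) x) :=
  DFunLike.congr_fun (Commute.pow_pow_self φ n i).eq x

theorem pow_succ_apply (n : ℕ) (x : G) : (φ ^ (n + 1)) x = (φ ^ n) (φ x) :=
  DFunLike.congr_fun (pow_succ φ n) x

theorem pow_succ_apply' (n : ℕ) (x : G) : (φ ^ (n + 1)) x = φ ((φ ^ n) x) :=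
  DFunLike.congr_fun (pow_succ' φ n) x

theorem pow_add_apply (a b : ℕ) (x : G) : (φ ^ (a + b)) x = (φ ^ a) ((φ ^ b) x) :=
  DFunLike.congr_fun (pow_add φ a b) x

theorem telescope (n : ℕ) (x : G) :
    ∑ i ∈ Finset.range n, (φ ^ i) (φ x - x) = (φ ^ n) x - x := by
  induction n with
  | zero => simp
  | succ n ih =>
    rw [Finset.sum_range_succ, ih, map_sub, ← pow_succ_apply]
    abel

theorem map_norm (n : ℕ) (x : G) :
    φ (∑ i ∈ Finset.range n, (φ ^ i) x) - ∑ i ∈ Finset.range n, (φ ^ i) x = (φ ^ n) x - x := by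
  rw [← telescope, map_sum, ← Finset.sum_sub_distrib]
  refine Finset.sum_congr rfl fun i _ => ?_
  rw [map_sub, ← pow_succ_apply, pow_succ_apply']

theorem pow_mul_fix {m : ℕ} {y : G} (h : (φ ^ m) y = y) (t : ℕ) : (φ ^ (m * t)) y = y := by
  induction t with
  | zero => simp
  | succ t ih => rw [mul_add, mul_one, pow_add_apply, h, ih]

theorem norm_mul {m : ℕ} {y : G} (h : (φ ^ m) y = y) (t : ℕ) :
    ∑ i ∈ Finset.range (m * t), (φ ^ i) y = t • ∑ i ∈ Finset.range m, (φ ^ i) y := by
  induction t with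
  | zero => simp
  | succ t ih =>
    rw [mul_add, mul_one, Finset.sum_range_add, ih, succ_nsmul]
    congr 1
    refine Finset.sum_congr rfl fun i _ => ?_
    rw [add_comm, pow_add_apply, pow_mul_fix φ h]

/-- The subgroup of fixed points of `φ ^ n`. -/
def fixSub (n : ℕ) : AddSubgroup G where
  carrier := {x | (φ ^ n) x = x}
  zero_mem' := map_zero _
  add_mem' := by
    intro a b ha hb
    show (φ ^ n) (a + b) = a + b
    rw [map_add, ha, hb]
  neg_mem' := by
    intro a ha
    show (φ ^ n) (-a) = -a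
    rw [map_neg, ha]

theorem mem_fixSub {n : ℕ} {x : G} : x ∈ fixSub φ n ↔ (φ ^ n) x = x := Iff.rfl

end LangAbs

open LangAbs in
/-- **STEP 7**, abstract form. -/
theorem surj_of_norm_surj {G : Type*} [AddCommGroup G] (φ : AddMonoid.End G)
    (ha : ∀ x : G, ∃ n, 0 < n ∧ (φ ^ n) x = x)
    (hb : ∀ n, 0 < n → {x : G | (φ ^ n) x = x}.Finite)
    (hN : ∀ m, 0 < m → ∀ b : G, φ b = b →
      ∃ a : G, (φ ^ m) a = a ∧ ∑ i ∈ Finset.range m, (φ ^ i) a = b)
    (y : G) : ∃ x : G, φ x - x = y := by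
  obtain ⟨m, hm, hmy⟩ := ha y
  set b := ∑ i ∈ Finset.range m, (φ ^ i) y with hbdef
  have hφb : φ b = b := by
    have := map_norm φ m y
    rw [hmy, sub_self, sub_eq_zero] at this
    exact this
  -- `b` has finite order
  have hfin1 : Finite (fixSub φ 1) := (hb 1 one_pos).to_subtype
  have hb1 : b ∈ fixSub φ 1 := by
    rw [mem_fixSub, pow_one]
    exact hφb
  obtain ⟨t, ht, htb⟩ : ∃ t : ℕ, 0 < t ∧ t • b = 0 := by
    refine ⟨addOrderOf (⟨b, hb1⟩ : fixSub φ 1), addOrderOf_pos _, ?_⟩
    have := addOrderOf_nsmul_eq_zero (⟨b, hb1⟩ : fixSub φ 1)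
    exact congrArg Subtype.val this
  set m' := m * t with hm'
  have hm'pos : 0 < m' := Nat.mul_pos hm ht
  have hy' : (φ ^ m') y = y := pow_mul_fix φ hmy t
  have hNy : ∑ i ∈ Finset.range m', (φ ^ i) y = 0 := by
    rw [hm', norm_mul φ hmy, ← hbdef, htb]
  -- the finite group `K`
  set K := fixSub φ m' with hK
  have hKfin : Finite K := (hb m' hm'pos).to_subtype
  let fG : G →+ G := (φ - 1 : AddMonoid.End G)
  have hfG : ∀ x, fG x = φ x - x := fun x => rfl
  let NG : G →+ G :=
    { toFun := fun x => ∑ i ∈ Finset.range m', (φ ^ i) x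
      map_zero' := by simp
      map_add' := fun a b => by simp only [map_add, Finset.sum_add_distrib] }
  have hNG : ∀ x, NG x = ∑ i ∈ Finset.range m', (φ ^ i) x := fun x => rfl
  let f : K →+ K := (fG.domRestrict K).codRestrict K (by
    intro x
    show (φ ^ m') (φ x - x) = φ x - x
    have h1 : (φ ^ m') (x : G) = x := x.2
    have h2 := pow_comm_apply φ m' 1 (x : G)
    rw [pow_one, h1] at h2
    rw [map_sub, h2, h1])
  let N : K →+ K := (NG.domRestrict K).codRestrict K (by
    intro x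
    show (φ ^ m') (NG x) = NG x
    have h1 : (φ ^ m') (x : G) = x := x.2
    rw [hNG, map_sum]
    refine Finset.sum_congr rfl fun i _ => ?_
    rw [pow_comm_apply, h1])
  have hf : ∀ x : K, ((f x : K) : G) = φ x - x := fun x => rfl
  have hNv : ∀ x : K, ((N x : K) : G) = ∑ i ∈ Finset.range m', (φ ^ i) (x : G) := fun x => hNG x
  have hker : f.ker = N.range := by
    ext x
    rw [AddMonoidHom.mem_ker, AddMonoidHom.mem_range]
    constructor
    · intro hx
      have hx' : φ (x : G) = x := by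
        have := congrArg Subtype.val hx
        rw [hf] at this
        exact sub_eq_zero.1 this
      obtain ⟨a, ha1, ha2⟩ := hN m' hm'pos x hx'
      exact ⟨⟨a, ha1⟩, Subtype.ext (by rw [hNv]; exact ha2)⟩
    · rintro ⟨a, rfl⟩
      apply Subtype.ext
      rw [hf, hNv]
      have h1 : (φ ^ m') (a : G) = a := a.2
      rw [map_norm, h1, sub_self]
      rfl
  have hle : f.range ≤ N.ker := by
    rintro _ ⟨a, rfl⟩
    rw [AddMonoidHom.mem_ker]
    apply Subtype.ext
    rw [hNv, hf, telescope]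
    have h1 : (φ ^ m') (a : G) = a := a.2
    rw [h1, sub_self]
    rfl
  have c1 : Nat.card K = Nat.card f.range * Nat.card f.ker := by
    rw [AddSubgroup.card_eq_card_quotient_mul_card_addSubgroup f.ker,
      Nat.card_congr (QuotientAddGroup.quotientKerEquivRange f).toEquiv]
  have c2 : Nat.card K = Nat.card N.range * Nat.card N.ker := by
    rw [AddSubgroup.card_eq_card_quotient_mul_card_addSubgroup N.ker,
      Nat.card_congr (QuotientAddGroup.quotientKerEquivRange N).toEquiv]
  have hpos : 0 < Nat.card N.range := Nat.card_pos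
  have hcard : Nat.card N.ker = Nat.card f.range := by
    rw [hker] at c1
    rw [c1, mul_comm] at c2
    exact (Nat.eq_of_mul_eq_mul_left hpos c2).symm
  have heq : f.range = N.ker := AddSubgroup.eq_of_le_of_card_ge hle hcard.le
  have hyk : (⟨y, hy'⟩ : K) ∈ N.ker := by
    rw [AddMonoidHom.mem_ker]
    apply Subtype.ext
    rw [hNv]
    exact hNy
  rw [← heq] at hyk
  obtain ⟨x, hx⟩ := hyk
  exact ⟨x, by rw [← hf, hx]⟩

end Fermat.Agent.S27.AZ
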