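import Mathlib

set_option autoImplicit false

noncomputable section

namespace Fermat.Agent.S27.AZ

/-- characters of a finite abelian group separate a subgroup from a point outside. -/
theorem exists_addChar_of_not_mem {G : Type*} [AddCommGroup G] [Finite G] (H : AddSubgroup G)
    (b : G) (hb : b ∉ H) : ∃ ψ : AddChar G ℂ, (∀ x ∈ H, ψ x = 1) ∧ ψ b ≠ 1 := by
  have hb' : (QuotientAddGroup.mk b : G ⧸ H) ≠ 0 := by
    rwa [Ne, QuotientAddGroup.eq_zero_iff]
  obtain ⟨ψ, hψ⟩ := AddChar.exists_apply_ne_zero.mpr hb'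
  refine ⟨ψ.compAddMonoidHom (QuotientAddGroup.mk' H), fun x hx => ?_, ?_⟩
  · rw [AddChar.compAddMonoidHom_apply, QuotientAddGroup.mk'_apply,
      (QuotientAddGroup.eq_zero_iff x).mpr hx, AddChar.map_zero_eq_one]
  · rw [AddChar.compAddMonoidHom_apply]
    exact hψ

namespace NormChar

/-- the subgroup of fixed points. -/
def fixSub {G : Type*} [AddCommGroup G] (φ : AddMonoid.End G) : AddSubgroup G where
  carrier := {a : G | φ a = a}
  add_mem' := by
    intro a b ha hb
    show φ (a + b) = a + b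
    rw [map_add, ha, hb]
  zero_mem' := map_zero φ
  neg_mem' := by
    intro a ha
    show φ (-a) = -a
    rw [map_neg, ha]

end NormChar

/-- Version for a group `G` with an endomorphism `φ` whose fixed points form a finite set:
a function `χ : G → ℂ`, multiplicative on the fixed points, trivial on `H`, with
`∑_{φ a = a} χ a = 0`. -/
theorem exists_char_on_fix {G : Type*} [AddCommGroup G] (φ : AddMonoid.End G)
    (hfin : {a : G | φ a = a}.Finite) (H : AddSubgroup G) (b : G) (hb : φ b = b) (hbH : b ∉ H) :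
    ∃ χ : G → ℂ, χ 0 = 1 ∧ (∀ a a', φ a = a → φ a' = a' → χ (a + a') = χ a * χ a') ∧
      (∀ x ∈ H, φ x = x → χ x = 1) ∧ ∑ᶠ a ∈ {a : G | φ a = a}, χ a = 0 := by
  classical
  let F : AddSubgroup G := NormChar.fixSub φ
  have hF : Finite F := hfin
  have : Fintype F := Fintype.ofFinite F
  obtain ⟨ψ, hψH, hψb⟩ := exists_addChar_of_not_mem (H.addSubgroupOf F) ⟨b, hb⟩ (by
    rw [AddSubgroup.mem_addSubgroupOf]
    exact hbH)
  let χ : G → ℂ := fun x => if h : φ x = x then ψ ⟨x, h⟩ else 0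
  have hχ : ∀ (x : G) (h : φ x = x), χ x = ψ ⟨x, h⟩ := fun x h => dif_pos h
  refine ⟨χ, ?_, ?_, ?_, ?_⟩
  · rw [hχ 0 (map_zero φ)]
    exact AddChar.map_zero_eq_one ψ
  · intro a a' ha ha'
    have haa : φ (a + a') = a + a' := by rw [map_add, ha, ha']
    rw [hχ _ haa, hχ _ ha, hχ _ ha', ← AddChar.map_add_eq_mul]
    rfl
  · intro x hx hφ
    rw [hχ x hφ]
    exact hψH ⟨x, hφ⟩ (by rw [AddSubgroup.mem_addSubgroupOf]; exact hx)
  · have h1 : ∑ᶠ a ∈ {a : G | φ a = a}, χ a = ∑ᶠ a : F, χ a :=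
      (finsum_set_coe_eq_finsum_mem (f := χ) {a : G | φ a = a}).symm
    rw [h1, finsum_eq_sum_of_fintype]
    have h2 : ∑ a : F, χ a = ∑ a : F, ψ a :=
      Finset.sum_congr rfl fun a _ => hχ a.1 a.2
    rw [h2]
    apply AddChar.sum_eq_zero_of_ne_one
    intro h
    apply hψb
    rw [h]
    rfl

end Fermat.Agent.S27.AZ
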