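import Mathlib
import Fermat.Agent.S27.AZ.Defs
import Fermat.Agent.S27.AZ.PowDef
import Fermat.Agent.S27.AZ.EffFinite
import Fermat.Agent.S27.AZ.Basic
import Fermat.Agent.S27.AZ.BasicCl
import Fermat.Agent.S27.AZ.CountA
import Fermat.Agent.S27.AZ.CountB

set_option autoImplicit false

noncomputable section

namespace Fermat.Agent.S27.AZ

namespace AZData

open PowerSeries

variable {S : Type*} (A : AZData S)

/-- the class of `Nm_{me} s` is a norm from level `m`. -/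
theorem cl0_nmDiv_mul (m e : ℕ) (s : S) (hs : s ∈ fixSet A.φ (m * e)) :
    ∃ a : A.Cl0, (A.phi0 ^ m) a = a ∧
      A.cl0 (nmDiv A.φ (m * e) s) = ∑ i ∈ Finset.range m, (A.phi0 ^ i) a := by
  have hs' : s ∈ fixSet (A.φ ^ m) e := by rwa [fixSet_pow]
  refine ⟨A.cl0 (nmDiv (A.φ ^ m) e s), ?_, ?_⟩
  · rw [← A.cl0_domCongr_pow, nmDiv_stable (A.φ ^ m) hs']
  · rw [nmDiv_mul, map_sum]
    exact Finset.sum_congr rfl fun i _ => A.cl0_domCongr_pow i _

/-- the norms from level `m` form a subgroup. -/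
def normRange (m : ℕ) : AddSubgroup A.Cl0 where
  carrier := {b | ∃ a : A.Cl0, (A.phi0 ^ m) a = a ∧ ∑ i ∈ Finset.range m, (A.phi0 ^ i) a = b}
  zero_mem' := ⟨0, by simp, by simp⟩
  add_mem' := by
    rintro b b' ⟨a, ha, rfl⟩ ⟨a', ha', rfl⟩
    exact ⟨a + a', by rw [map_add, ha, ha'], by simp [Finset.sum_add_distrib]⟩
  neg_mem' := by
    rintro b ⟨a, ha, rfl⟩
    exact ⟨-a, by rw [map_neg, ha], by simp⟩

/-- the `L`-series of a character `χ` with `∑ χ = 0` is a polynomial. -/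
theorem exists_poly_wZ_char (χ : A.Cl0 → ℂ) (h0 : χ 0 = 1)
    (hsum : ∑ᶠ a ∈ {a : A.Cl0 | A.phi0 a = a}, χ a = 0) :
    ∃ P : Polynomial ℂ, P.coeff 0 = 1 ∧ (P : PowerSeries ℂ) = wZ A.φ fun E => χ (A.cl0 E) := by
  have hq : (A.q : ℂ) - 1 ≠ 0 := by
    have h1 : (A.q : ℂ) ≠ 1 := by
      have := A.one_lt_q
      exact_mod_cast this.ne'
    exact sub_ne_zero.mpr h1
  have hvan : ∀ n, 2 * A.g ≤ n + 1 → (wZ A.φ fun E => χ (A.cl0 E)).coeff n = 0 := by
    intro n hn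
    have h := A.weighted_count_large χ n hn
    rw [hsum, mul_zero] at h
    rw [wZ, PowerSeries.coeff_mk]
    exact (mul_eq_zero.mp h).resolve_left hq
  have h00 : (wZ A.φ fun E => χ (A.cl0 E)).coeff 0 = 1 := by
    rw [wZ, PowerSeries.coeff_mk, effSet_zero, finsum_mem_singleton, map_zero, h0]
  refine ⟨PowerSeries.trunc (2 * A.g + 1) (wZ A.φ fun E => χ (A.cl0 E)), ?_, ?_⟩
  · rw [PowerSeries.coeff_trunc, if_pos (Nat.succ_pos _), h00]
  · ext n
    rw [Polynomial.coeff_coe, PowerSeries.coeff_trunc]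
    split_ifs with hn
    · rfl
    · exact (hvan n (by omega)).symm

/-- if `χ` is trivial on norms from level `m`, its point counts in degrees `m e` are the
ordinary ones. -/
theorem coeff_wN_char (χ : A.Cl0 → ℂ) (m : ℕ) (hm : 0 < m)
    (htriv : ∀ x ∈ A.normRange m, A.phi0 x = x → χ x = 1) (e : ℕ) :
    (((wN (A.φ ^ m) fun _ => (1 : ℤ)).coeff e : ℤ) : ℂ) =
      (wN A.φ fun E => χ (A.cl0 E)).coeff (m * e) := by
  rw [wN, wN, PowerSeries.coeff_mk, PowerSeries.coeff_mk]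
  rcases Nat.eq_zero_or_pos e with rfl | he
  · simp
  have hme : 0 < m * e := Nat.mul_pos hm he
  rw [if_neg he.ne', if_neg hme.ne', fixSet_pow]
  have hfin : (fixSet A.φ (m * e)).Finite := A.finite_fix (m * e) hme
  have h1 : ∑ᶠ s ∈ fixSet A.φ (m * e), χ (A.cl0 (nmDiv A.φ (m * e) s)) =
      ∑ᶠ s ∈ fixSet A.φ (m * e), (1 : ℂ) := by
    refine finsum_mem_congr rfl fun s hs => ?_
    refine htriv _ ?_ (A.phi0_cl0_of_stable (nmDiv_stable A.φ hs))
    obtain ⟨a, ha, hsum⟩ := A.cl0_nmDiv_mul m e s hs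
    exact ⟨a, ha, hsum.symm⟩
  rw [h1, finsum_mem_eq_finite_toFinset_sum _ hfin, finsum_mem_eq_finite_toFinset_sum _ hfin]
  push_cast
  rfl

end AZData

end Fermat.Agent.S27.AZ
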