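import Mathlib
import Fermat.Agent.S27.AZ.Defs
import Fermat.Agent.S27.AZ.MatrixLD
import Fermat.Agent.S27.AZ.Uniq
import Fermat.Agent.S27.AZ.Companion

set_option autoImplicit false

noncomputable section

namespace Fermat.Agent.S27.AZ

open PowerSeries

/-- `tr` series of a power: coefficient `e` of `trS (M^m)` is coefficient `m e` of `trS M`. -/
theorem coeff_trS_pow {R : Type*} [CommRing R] {r : ℕ} (M : Matrix (Fin r) (Fin r) R) (m : ℕ)
    (hm : 0 < m) (e : ℕ) : (trS (M ^ m)).coeff e = (trS M).coeff (m * e) := by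
  unfold trS
  rw [coeff_mk, coeff_mk]
  rcases Nat.eq_zero_or_pos e with rfl | he
  · simp
  · rw [if_neg he.ne', if_neg (Nat.mul_pos hm he).ne', pow_mul]

/-- **STEP 6**, power series core: if the `L`-series `P` of `χ` is a polynomial and the point
counts of level `m` are those of `χ`, then `Z_m` is a polynomial, so `L_m(1) = 0`. -/
theorem eval_one_eq_zero_of_char (P : Polynomial ℂ) (hP0 : P.coeff 0 = 1) (Nχ : PowerSeries ℂ)
    (hP : X * d⁄dX ℂ (P : PowerSeries ℂ) = (P : PowerSeries ℂ) * Nχ)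
    (m : ℕ) (hm : 0 < m) (Zm Nm : PowerSeries ℤ) (hZ0 : constantCoeff Zm = 1)
    (hZ : X * d⁄dX ℤ Zm = Zm * Nm)
    (hN : ∀ e, ((Nm.coeff e : ℤ) : ℂ) = Nχ.coeff (m * e)) (a : ℤ) (L : Polynomial ℤ)
    (hL : (L : PowerSeries ℤ) = (1 - X) * (1 - C a * X) * Zm) : L.eval 1 = 0 := by
  obtain ⟨Mχ, hM, -⟩ := exists_matrix_charpolyRev P P.natDegree le_rfl hP0
  have h1 := X_mul_derivative_charpolyRev Mχ
  rw [hM] at h1
  have hNχ : Nχ = - trS Mχ :=
    logDeriv_unique (P : PowerSeries ℂ) _ _ (by rw [Polynomial.constantCoeff_coe, hP0]) hP h1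
  have hZ' := logDeriv_map (Int.castRingHom ℂ) Zm Nm hZ
  have hNm : PowerSeries.map (Int.castRingHom ℂ) Nm = - trS (Mχ ^ m) := by
    ext e
    rw [coeff_map, map_neg, coeff_trS_pow Mχ m hm e, eq_intCast, hN e, hNχ, map_neg]
  rw [hNm] at hZ'
  have hQ := X_mul_derivative_charpolyRev (Mχ ^ m)
  have hQ0 : constantCoeff ((Mχ ^ m).charpolyRev : PowerSeries ℂ) = 1 := by
    rw [Polynomial.constantCoeff_coe, Polynomial.coeff_zero_eq_eval_zero, Matrix.eval_charpolyRev]
  have hZ'0 : constantCoeff (PowerSeries.map (Int.castRingHom ℂ) Zm) = 1 := by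
    rw [← coeff_zero_eq_constantCoeff_apply, coeff_map, coeff_zero_eq_constantCoeff_apply, hZ0,
      map_one]
  have hZQ := eq_of_logDeriv_eq _ _ _ hZ'0 hQ0 hZ' hQ
  have hL' := congrArg (PowerSeries.map (Int.castRingHom ℂ)) hL
  have hLmap : PowerSeries.map (Int.castRingHom ℂ) (L : PowerSeries ℤ) =
      ((L.map (Int.castRingHom ℂ) : Polynomial ℂ) : PowerSeries ℂ) := by
    ext e
    simp
  rw [hLmap, map_mul, hZQ, map_mul, map_sub, map_sub, map_mul, map_one, PowerSeries.map_X,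
    PowerSeries.map_C] at hL'
  have hpoly : L.map (Int.castRingHom ℂ) =
      (1 - Polynomial.X) * (1 - Polynomial.C ((Int.castRingHom ℂ) a) * Polynomial.X) *
        (Mχ ^ m).charpolyRev := by
    apply Polynomial.coe_injective
    rw [hL', Polynomial.coe_mul, Polynomial.coe_mul, Polynomial.coe_sub, Polynomial.coe_sub,
      Polynomial.coe_mul, Polynomial.coe_one, Polynomial.coe_X, Polynomial.coe_C]
  have heval : (L.map (Int.castRingHom ℂ)).eval 1 = 0 := by
    rw [hpoly]
    simp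
  rw [Polynomial.eval_map, Polynomial.eval₂_at_one] at heval
  rw [eq_intCast] at heval
  exact_mod_cast heval

end Fermat.Agent.S27.AZ
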