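import Mathlib
import Fermat.Agent.S27.AZ.Defs
import Fermat.Agent.S27.AZ.Det
import Fermat.Agent.S27.AZ.NormChar
import Fermat.Agent.S27.AZ.NormSeries
import Fermat.Agent.S27.AZ.NormGeom

set_option autoImplicit false

noncomputable section

namespace Fermat.Agent.S27.AZ

namespace AZData

variable {S : Type*} (A : AZData S)

/-- **STEP 6**: the norm `A_m → A_1` is onto. -/
theorem norm_surjective (hg : 1 ≤ A.g) (m : ℕ) (hm : 0 < m) (b : A.Cl0) (hb : A.phi0 b = b) :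
    ∃ a : A.Cl0, (A.phi0 ^ m) a = a ∧ ∑ i ∈ Finset.range m, (A.phi0 ^ i) a = b := by
  by_contra hcon
  have hbH : b ∉ A.normRange m := hcon
  obtain ⟨χ, h0, hmul, htriv, hsum⟩ :=
    exists_char_on_fix A.phi0 A.finite_fix_cl0 (A.normRange m) b hb hbH
  obtain ⟨P, hP0, hP⟩ := A.exists_poly_wZ_char χ h0 hsum
  have hld := logDeriv_wZ A.φ A.finite_fix (fun E => χ (A.cl0 E)) (by
    intro E E' _ _ hE hE'
    show χ (A.cl0 (E + E')) = χ (A.cl0 E) * χ (A.cl0 E')
    rw [map_add]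
    exact hmul _ _ (A.phi0_cl0_of_stable hE) (A.phi0_cl0_of_stable hE'))
  rw [← hP] at hld
  obtain ⟨L, -, hL, -, -, hL1⟩ := (A.pow m hm).exists_L hg
  have hZ0 : PowerSeries.constantCoeff (A.pow m hm).Z = 1 := by
    rw [← PowerSeries.coeff_zero_eq_constantCoeff_apply]
    exact (A.pow m hm).coeff_Z_zero
  have key := eval_one_eq_zero_of_char P hP0 (wN A.φ fun E => χ (A.cl0 E)) hld m hm
    (A.pow m hm).Z (wN (A.φ ^ m) fun _ => (1 : ℤ)) hZ0 (A.pow m hm).logDeriv_Z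
    (A.coeff_wN_char χ m hm htriv) ((A.pow m hm).q : ℤ) L hL
  rw [hL1] at key
  have hpos := (A.pow m hm).h_pos 1 one_pos
  omega

end AZData

end Fermat.Agent.S27.AZ
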