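import Mathlib
import Fermat.Agent.S27.AZ.Defs

set_option autoImplicit false

noncomputable section

namespace Fermat.Agent.S27.AZ

namespace RelIndex

variable {S : Type*} (A : AZData S)

/-- the class map on the lift of the `n`-torsion. -/
def toCl0 (n : ℕ) : A.torsionLift n →+ A.Cl0 :=
  ((QuotientAddGroup.mk' A.Prin).comp (A.torsionLift n).subtype).codRestrict A.Cl0 fun D => by
    rw [AddMonoidHom.mem_ker]
    exact D.2.1

theorem coe_toCl0 (n : ℕ) (D : A.torsionLift n) :
    ((toCl0 A n D : A.Cl0) : A.Cl) = QuotientAddGroup.mk (D : S →₀ ℤ) := rfl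

theorem ker_toCl0 (n : ℕ) : (toCl0 A n).ker = A.Prin.addSubgroupOf (A.torsionLift n) := by
  ext D
  rw [AddMonoidHom.mem_ker, AddSubgroup.mem_addSubgroupOf, ← QuotientAddGroup.eq_zero_iff,
    ← coe_toCl0, ← AddSubgroup.coe_zero A.Cl0, Subtype.ext_iff]

theorem mem_range_toCl0 (n : ℕ) (x : A.Cl0) : x ∈ (toCl0 A n).range ↔ n • x = 0 := by
  constructor
  · rintro ⟨D, rfl⟩
    apply Subtype.ext
    rw [AddSubgroup.coe_nsmul, coe_toCl0, AddSubgroup.coe_zero, ← QuotientAddGroup.mk_nsmul,
      QuotientAddGroup.eq_zero_iff]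
    exact D.2.2
  · intro h
    obtain ⟨D, hD⟩ := QuotientAddGroup.mk_surjective (x : A.Cl)
    have h1 : degHom S D = 0 := by
      have := x.2
      rw [AddMonoidHom.mem_ker, ← hD, AZData.degCl_mk] at this
      exact this
    have h2 : n • D ∈ A.Prin := by
      rw [← QuotientAddGroup.eq_zero_iff, QuotientAddGroup.mk_nsmul, hD, ← AddSubgroup.coe_nsmul,
        h, AddSubgroup.coe_zero]
    exact ⟨⟨D, h1, h2⟩, Subtype.ext hD⟩

end RelIndex

namespace AZData

variable {S : Type*} (A : AZData S)

/-- **STEP 10**: translation between the flat statement and the quotient group. -/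
theorem relIndex_torsionLift (n : ℕ) :
    A.Prin.relIndex (A.torsionLift n) = Nat.card {x : A.Cl0 // n • x = 0} := by
  rw [AddSubgroup.relIndex, ← RelIndex.ker_toCl0, AddSubgroup.index_ker]
  exact Nat.card_congr (Equiv.subtypeEquivRight (RelIndex.mem_range_toCl0 A n))

end AZData

end Fermat.Agent.S27.AZ
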