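import Mathlib

set_option autoImplicit false

noncomputable section

namespace Fermat.Agent.S27.AZ

namespace Valuation

/-- a matrix which vanishes mod `d` is a multiple of `d`. -/
theorem exists_eq_smul {r : ℕ} (d : ℕ) (C : Matrix (Fin r) (Fin r) ℤ)
    (h : C.map (Int.castRingHom (ZMod d)) = 0) :
    ∃ E : Matrix (Fin r) (Fin r) ℤ, C = (d : ℤ) • E := by
  have h1 : ∀ i j, (d : ℤ) ∣ C i j := by
    intro i j
    have := congrFun (congrFun h i) j
    simp only [Matrix.map_apply, Matrix.zero_apply, eq_intCast] at this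
    exact (ZMod.intCast_zmod_eq_zero_iff_dvd _ _).mp this
  choose E hE using h1
  refine ⟨Matrix.of E, ?_⟩
  ext i j
  simp [hE i j]

theorem not_dvd_det {r : ℕ} (ℓ : ℕ) (hℓ : ℓ.Prime) (E : Matrix (Fin r) (Fin r) ℤ) :
    ¬ (ℓ : ℤ) ∣ (1 + (ℓ : ℤ) • E).det := by
  intro h
  have : Fact ℓ.Prime := ⟨hℓ⟩
  have h1 : ((1 + (ℓ : ℤ) • E).det : ZMod ℓ) = 0 := (ZMod.intCast_zmod_eq_zero_iff_dvd _ _).mpr h
  have h2 : (Int.castRingHom (ZMod ℓ)) (1 + (ℓ : ℤ) • E).det = 1 := by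
    rw [RingHom.map_det]
    have : (Int.castRingHom (ZMod ℓ)).mapMatrix (1 + (ℓ : ℤ) • E) = 1 := by
      rw [map_add, map_one]
      have : (Int.castRingHom (ZMod ℓ)).mapMatrix ((ℓ : ℤ) • E) = 0 := by
        ext i j
        rw [RingHom.mapMatrix_apply, Matrix.map_apply, Matrix.smul_apply]
        simp
      rw [this, add_zero]
    rw [this, Matrix.det_one]
  rw [eq_intCast, h1] at h2
  exact zero_ne_one h2

theorem geom {r : ℕ} (ℓ : ℕ) (B : Matrix (Fin r) (Fin r) ℤ)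
    (hB : (Int.castRingHom (ZMod (ℓ ^ 2))).mapMatrix B = 1) :
    ∃ E : Matrix (Fin r) (Fin r) ℤ, ∑ i ∈ Finset.range ℓ, B ^ i = (ℓ : ℤ) • (1 + (ℓ : ℤ) • E) := by
  obtain ⟨E, hE⟩ := exists_eq_smul (ℓ ^ 2) (∑ i ∈ Finset.range ℓ, B ^ i - (ℓ : ℤ) • 1) (by
    show (Int.castRingHom (ZMod (ℓ ^ 2))).mapMatrix _ = 0
    rw [map_sub, map_sum]
    simp only [map_pow, hB, one_pow, Finset.sum_const, Finset.card_range]
    rw [sub_eq_zero]
    ext i j
    rw [RingHom.mapMatrix_apply, Matrix.map_apply, Matrix.smul_apply, Matrix.smul_apply]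
    by_cases hij : i = j
    · subst hij
      simp
    · simp [hij])
  refine ⟨E, ?_⟩
  rw [sub_eq_iff_eq_add] at hE
  rw [hE, smul_add, smul_smul, add_comm]
  congr 2
  push_cast
  ring

end Valuation

/-- **STEP 9**. -/
theorem exists_period {r : ℕ} (M : Matrix (Fin r) (Fin r) ℤ) (ℓ : ℕ) (hℓ : ℓ.Prime)
    (hdet : ¬ (ℓ : ℤ) ∣ M.det) :
    ∃ n0, 0 < n0 ∧ ∀ n, 0 < n → n0 ∣ n → (1 - M ^ n).det ≠ 0 →
      padicValNat ℓ ((1 - M ^ (n * ℓ)).det.natAbs) =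
        padicValNat ℓ ((1 - M ^ n).det.natAbs) + r := by
  have : Fact ℓ.Prime := ⟨hℓ⟩
  have : NeZero (ℓ ^ 2) := ⟨pow_ne_zero _ hℓ.ne_zero⟩
  set φ := (Int.castRingHom (ZMod (ℓ ^ 2))).mapMatrix (m := Fin r) with hφ
  have hunit : IsUnit (φ M) := by
    rw [Matrix.isUnit_iff_isUnit_det]
    have : (φ M).det = ((M.det : ℤ) : ZMod (ℓ ^ 2)) := by
      rw [hφ, ← RingHom.map_det, eq_intCast]
    rw [this]
    have hcop : IsCoprime M.det ((ℓ ^ 2 : ℕ) : ℤ) := by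
      push_cast
      apply IsCoprime.pow_right
      exact ((Nat.prime_iff_prime_int.mp hℓ).coprime_iff_not_dvd.mpr hdet).symm
    obtain ⟨a, b, hab⟩ := hcop
    have h1 := congrArg (Int.cast : ℤ → ZMod (ℓ ^ 2)) hab
    simp only [Int.cast_add, Int.cast_mul, Int.cast_one, Int.cast_pow, Int.cast_natCast,
      Nat.cast_pow] at h1
    have h2 : ((ℓ : ZMod (ℓ ^ 2)) ^ 2) = 0 := by
      have := ZMod.natCast_self (ℓ ^ 2)
      push_cast at this
      exact this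
    rw [h2, mul_zero, add_zero] at h1
    exact IsUnit.of_mul_eq_one _ (by rw [mul_comm]; exact h1)
  refine ⟨orderOf hunit.unit, orderOf_pos _, ?_⟩
  intro n hn hdvd hne
  have hB : φ (M ^ n) = 1 := by
    obtain ⟨c, rfl⟩ := hdvd
    rw [map_pow, pow_mul]
    have h1 := pow_orderOf_eq_one hunit.unit
    have h2 := congrArg (Units.val) h1
    rw [Units.val_pow_eq_pow_val, IsUnit.unit_spec, Units.val_one] at h2
    rw [h2, one_pow]
  obtain ⟨E, hE⟩ := Valuation.geom ℓ (M ^ n) hB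
  have hmul : (1 - M ^ n) * ∑ i ∈ Finset.range ℓ, (M ^ n) ^ i = 1 - M ^ (n * ℓ) := by
    rw [mul_neg_geom_sum, pow_mul]
  rw [← hmul, hE, Matrix.det_mul, Matrix.det_smul, Fintype.card_fin, Int.natAbs_mul,
    Int.natAbs_mul, Int.natAbs_pow, Int.natAbs_natCast]
  have h3 := Valuation.not_dvd_det ℓ hℓ E
  have h4 : (1 + (ℓ : ℤ) • E).det.natAbs ≠ 0 := by
    intro h
    apply h3
    rw [Int.natAbs_eq_zero.mp h]
    exact dvd_zero _
  have h5 : ¬ ℓ ∣ (1 + (ℓ : ℤ) • E).det.natAbs := by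
    intro h
    exact h3 (Int.natCast_dvd.mpr h)
  rw [padicValNat.mul (Int.natAbs_ne_zero.mpr hne) (mul_ne_zero (pow_ne_zero _ hℓ.ne_zero) h4),
    padicValNat.mul (pow_ne_zero _ hℓ.ne_zero) h4, padicValNat.prime_pow,
    padicValNat.eq_zero_of_not_dvd h5, add_zero]

end Fermat.Agent.S27.AZ
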