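import Mathlib
import Fermat.Agent.S27.AZ.Defs
import Fermat.Agent.S27.AZ.Det
import Fermat.Agent.S27.AZ.Norm
import Fermat.Agent.S27.AZ.LangAbs
import Fermat.Agent.S27.AZ.Valuation
import Fermat.Agent.S27.AZ.GroupThm
import Fermat.Agent.S27.AZ.RelIndex

set_option autoImplicit false

noncomputable section

namespace Fermat.Agent.S27.AZ

namespace AZData

variable {S : Type*} (A : AZData S)

/-- **STEP 7** (Lang). -/
theorem lang (hg : 1 ≤ A.g) (y : A.Cl0) : ∃ x : A.Cl0, A.phi0 x - x = y :=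
  surj_of_norm_surj A.phi0 A.exists_pow_fix_cl0 A.finite_fix_cl0_pow
    (fun m hm b hb => A.norm_surjective hg m hm b hb) y

theorem lang_pow (hg : 1 ≤ A.g) (n : ℕ) (hn : 0 < n) (y : A.Cl0) :
    ∃ x : A.Cl0, (A.phi0 ^ n) x - x = y :=
  A.surj_of_pow n hn ((A.pow n hn).lang hg) y

theorem card_torsion_of_one_le (hg : 1 ≤ A.g) (ℓ : ℕ) (hℓ : ℓ.Prime) (hq : ¬ ℓ ∣ A.q) (k : ℕ) :
    Nat.card {x : A.Cl0 // ℓ ^ k • x = 0} = ℓ ^ (2 * A.g * k) := by
  obtain ⟨M, hdet, hM⟩ := A.exists_matrix hg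
  have hdet' : ¬ (ℓ : ℤ) ∣ M.det := by
    rw [hdet]
    intro h
    have := Int.Prime.dvd_pow' hℓ h
    exact hq (by exact_mod_cast this)
  obtain ⟨n0, hn0, hper⟩ := exists_period M ℓ hℓ hdet'
  refine card_torsion_of_frobenius A.phi0 ℓ hℓ (2 * A.g) A.exists_pow_fix_cl0
    A.finite_fix_cl0_pow (A.lang_pow hg) ⟨n0, hn0, fun n hn hdvd => ?_⟩ k
  have h1 : (A.h n : ℤ) = (1 - M ^ n).det := hM n hn
  have h2 : (A.h (n * ℓ) : ℤ) = (1 - M ^ (n * ℓ)).det := hM _ (Nat.mul_pos hn hℓ.pos)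
  have hne : (1 - M ^ n).det ≠ 0 := by
    rw [← h1]
    exact_mod_cast (A.h_pos n hn).ne'
  have := hper n hn hdvd hne
  rw [← h1, ← h2, Int.natAbs_natCast, Int.natAbs_natCast] at this
  exact this

theorem card_torsion_of_eq_zero (hg : A.g = 0) (n : ℕ) :
    Nat.card {x : A.Cl0 // n • x = 0} = 1 := by
  have hsub : Subsingleton A.Cl0 := by
    refine ⟨fun x y => ?_⟩
    have key : ∀ z : A.Cl0, z = 0 := by
      rintro ⟨z, hz⟩
      induction z using QuotientAddGroup.induction_on with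
      | H D =>
        ext
        exact (QuotientAddGroup.eq_zero_iff D).mpr (A.mem_prin_of_g_eq_zero hg hz)
    rw [key x, key y]
  have : Unique {x : A.Cl0 // n • x = 0} :=
    { default := ⟨0, smul_zero n⟩
      uniq := fun x => Subtype.ext (Subsingleton.elim _ _) }
  exact Nat.card_unique

theorem card_torsion (ℓ : ℕ) (hℓ : ℓ.Prime) (hq : ¬ ℓ ∣ A.q) (k : ℕ) :
    Nat.card {x : A.Cl0 // ℓ ^ k • x = 0} = ℓ ^ (2 * A.g * k) := by
  rcases Nat.eq_zero_or_pos A.g with hg | hg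
  · rw [A.card_torsion_of_eq_zero hg, hg]; simp
  · exact A.card_torsion_of_one_le hg ℓ hℓ hq k

end AZData

universe u

/-- **The main theorem of block AZ.** -/
theorem azMain : AZMain.{u} := by
  intro S A ℓ hℓ hq k
  rw [A.relIndex_torsionLift, A.card_torsion ℓ hℓ hq k]

end Fermat.Agent.S27.AZ
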