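import Mathlib

set_option autoImplicit false

noncomputable section

namespace Fermat.Agent.S27.AZ

theorem end_mul_apply {G : Type*} [AddCommGroup G] (f g : AddMonoid.End G) (x : G) :
    (f * g) x = f (g x) := rfl

theorem end_sub_apply {G : Type*} [AddCommGroup G] (f g : AddMonoid.End G) (x : G) :
    (f - g) x = f x - g x := rfl

theorem end_add_apply {G : Type*} [AddCommGroup G] (f g : AddMonoid.End G) (x : G) :
    (f + g) x = f x + g x := rfl

theorem end_one_apply {G : Type*} [AddCommGroup G] (x : G) : (1 : AddMonoid.End G) x = x := rfl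

theorem end_pow_add_apply {G : Type*} [AddCommGroup G] (f : AddMonoid.End G) (a b : ℕ) (x : G) :
    (f ^ (a + b)) x = (f ^ a) ((f ^ b) x) := by
  rw [pow_add]; rfl

theorem end_pow_mul_apply_of_fix {G : Type*} [AddCommGroup G] {f : AddMonoid.End G} {a : ℕ}
    {x : G} (h : (f ^ a) x = x) (b : ℕ) : (f ^ (a * b)) x = x := by
  induction b with
  | zero => simp
  | succ b ih => rw [mul_add, mul_one, end_pow_add_apply, h, ih]

/-- An `ℓ`-primary abelian group `B` with an endomorphism `ψ` acting "locally unipotently":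
`G_j = ker(ψ^(ℓ^j) - 1)` exhaust `B`, `#G_j = ℓ^(c + r j)` and all `ψ^(ℓ^j) - 1` are onto. -/
structure UniData (B : Type*) [AddCommGroup B] (ψ : AddMonoid.End B) (ℓ c r : ℕ) : Prop where
  prime : ℓ.Prime
  primary : ∀ x : B, ∃ a : ℕ, ℓ ^ a • x = 0
  unip : ∀ x : B, ∃ j : ℕ, (ψ ^ (ℓ ^ j)) x = x
  card : ∀ j : ℕ, Nat.card {x : B // (ψ ^ (ℓ ^ j)) x = x} = ℓ ^ (c + r * j)
  surj : ∀ j : ℕ, ∀ y : B, ∃ x : B, (ψ ^ (ℓ ^ j)) x - x = y

end Fermat.Agent.S27.AZ
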